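/-
GATE-B / S43, node GB-B7-TWU (helper52), file 2: **the twist ring homomorphism WITH `U`-generators,
final forms** — twins of helper44's `TwFinal.exists_tw(_of_field)`, `TwInst.exists_tw_of_pr`,
`TwInst.exists_tw_pi`, `TwInst.exists_tw_primeData`, built on `TwU.exists_twU_of_chains`.

Setting as in `TwFinal`: `θ : (ZMod N)ˣ →* Δ` surjective, `|Δ|` odd, `L` a list of distinct primes
`r ∥ N` carrying the local product structure of `θ`, `N' = N * L.prod`.  The ONLY hypothesis on `S`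
is `hS : ∀ r ∈ L, r ∈ S` (the twisting primes are in `S`); every other prime `l ∣ N` may stay outside
`S`, and then `U_l` is a generator of `heckeAlgebra N' 2 S` with `tw (U_l) = ⟨dℓ l⟩ ∘ U_l`.

The half-diamonds: for `l ∉ S` prime (so `l ∉ L`), `dℓ l ∈ Γ₀(N)` with
`χ_θ(dℓ l)² · θ(u) = 1` for every unit `u` of `ZMod N` with `u ≡ l` modulo every `r ∈ L`
(`θ u` depends on these residues only; for `l ∤ N` one may take `u = l`).

* `exists_unit_cast` : such units exist (Chinese remainder theorem);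
* `theta_eq_of_cast` : `θ u` depends on the residues of `u` modulo the `r ∈ L` only;
* `chainPsi_eq_of_cast` : `∏ ψ_r(l) = ε'(θ u)`;
* `exists_twU_of_field`, `exists_twU` : the final form; `exists_dlU` : the half-diamonds exist;
* `exists_twU_of_pr`, `exists_twU_pi`, `exists_twU_primeData` : the instances (B3's stage
  `GammaH (Theta (Δs p e) H.psi j)`).
-/
import Mathlib
import Fermat.Agent.GB.B7.TwU
import Fermat.Agent.GE8.P3B.GB.B4.Twist.TwInst
import Fermat.Agent.GE8.P3B.StepGen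
import Fermat.Agent.GE8.P3B.Ok3W

/- TWIN (helper6 B4 generator; conventions of helper24 / helper86) of `Fermat.Agent.GB.B7.TwUInst` with `p ≠ 3` relaxed to `Ok3A Sy 𝔪 p` / `Ok3W p W` (RISK-5 fix (B), step B4); everything below lives in the wrapper namespace `Fermat.Agent.GE8.P3B`. -/
set_option linter.dupNamespace false
open Fermat Fermat.Agent Fermat.Agent.GB Fermat.Agent.GB.B3 Fermat.Agent.GB.B3.EisGamma0 Fermat.Agent.GB.B3.GamH Fermat.Agent.GB.B3.TWChars Fermat.Agent.GB.B4 Fermat.Agent.GB.B4.Twist Fermat.Agent.GB.B4.Twist.Asm Fermat.Agent.GB.B4.Twist.Chain Fermat.Agent.GB.B4.Twist.ChainD Fermat.Agent.GB.B4.Twist.L6Loc Fermat.Agent.GB.B7 Fermat.Agent.GB.B7.TwU Fermat.Agent.GJ Fermat.Agent.GJ.J2 Fermat.Agent.GJ.J2.Lat Fermat.Agent.GJ.J2.ZStruct Fermat.Agent.GM Fermat.Agent.GM.B Fermat.Agent.GM.EisClass Fermat.Agent.S16_helper49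

namespace Fermat.Agent.GE8.P3B

set_option autoImplicit false
set_option linter.unusedSectionVars false
set_option linter.style.haveILetI false

noncomputable section

open scoped MatrixGroups
open CongruenceSubgroup Matrix Matrix.SpecialLinearGroup ModularCurve.Period CuspForm
open S16_helper49 GM.B GM.EisClass
open GB.B3 GB.B3.EisGamma0 GB.B3.GamH
open GJ.J2.ZStruct GJ.J2.Lat
open GB.B4.Twist.Chain GB.B4.Twist.ChainD
open GB.B4.Twist.Asm GB.B4.Twist.L6Loc
open GB.B4.Twist.TwInst GB.B3.Tower GB.B3.TWChars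
open GB.B7.TwU

namespace GB.B7.TwUInst

/-! ### units with prescribed residues -/

section CRT

/-- a product of distinct primes dividing `N` divides `N` -/
theorem list_prod_dvd_of_primes {N : ℕ} (L : List ℕ) (hL : ∀ r ∈ L, r.Prime) (hnd : L.Nodup)
    (hdvd : ∀ r ∈ L, r ∣ N) : L.prod ∣ N := by
  induction L with
  | nil => simp
  | cons r L ih =>
    rw [List.prod_cons]
    have hr : r.Prime := hL r (List.mem_cons_self ..)
    have hnd' := List.nodup_cons.mp hnd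
    refine Nat.Coprime.mul_dvd_of_dvd_of_dvd ?_ (hdvd r (List.mem_cons_self ..))
      (ih (fun s hs => hL s (List.mem_cons_of_mem r hs)) hnd'.2
        (fun s hs => hdvd s (List.mem_cons_of_mem r hs)))
    rw [Nat.coprime_list_prod_right_iff]
    intro s hs
    refine (Nat.coprime_primes hr (hL s (List.mem_cons_of_mem r hs))).mpr ?_
    rintro rfl
    exact hnd'.1 hs

/-- **CRT**: a unit of `ZMod N` congruent to the prime `ℓ` modulo every `r ∈ L` (`ℓ ∉ L`) -/
theorem exists_unit_cast {N : ℕ} [NeZero N] (L : List ℕ) (hL : ∀ r ∈ L, r.Prime) (hnd : L.Nodup)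
    (hdvd : ∀ r ∈ L, r ∣ N) (ℓ : ℕ) (hℓ : ℓ.Prime) (hℓL : ℓ ∉ L) :
    ∃ u : (ZMod N)ˣ, ∀ r ∈ L, (((u : ZMod N)).cast : ZMod r) = ((ℓ : ℕ) : ZMod r) := by
  have hM : L.prod ∣ N := list_prod_dvd_of_primes L hL hnd hdvd
  have hcop : Nat.Coprime ℓ L.prod := by
    rw [Nat.coprime_list_prod_right_iff]
    intro s hs
    refine (Nat.coprime_primes hℓ (hL s hs)).mpr ?_
    rintro rfl
    exact hℓL hs
  obtain ⟨u, hu⟩ := ZMod.unitsMap_surjective hM (ZMod.unitOfCoprime ℓ hcop)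
  refine ⟨u, fun r hr => ?_⟩
  have hrM : r ∣ L.prod := List.dvd_prod hr
  have h1 := congrArg (fun f => f u) (ZMod.unitsMap_comp hrM hM)
  simp only [MonoidHom.comp_apply] at h1
  rw [hu] at h1
  rw [cast_unit_eq (hrM.trans hM) u, ← h1, ← cast_unit_eq hrM, ZMod.coe_unitOfCoprime,
    ZMod.cast_natCast hrM]

end CRT

/-! ### the local product structure -/

section Loc

variable {N : ℕ} {Δ : Type} [CommGroup Δ] (θ : (ZMod N)ˣ →* Δ)
  (L : List ℕ) (hdvd : ∀ r ∈ L, r ∣ N)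
  (θloc : (r : ℕ) → (ZMod r)ˣ →* Δ) (pr : ℕ → Δ →* Δ)
  (hpr : ∀ r ∈ L, ∀ (h : r ∣ N) (u : (ZMod N)ˣ), pr r (θ u) = θloc r (ZMod.unitsMap h u))
  (hprod : ∀ u : (ZMod N)ˣ, θ u = (L.map fun r => pr r (θ u)).prod)

include hdvd hpr hprod in
/-- `θ u` depends on the residues of `u` modulo the primes of `L` only -/
theorem theta_eq_of_cast (u u' : (ZMod N)ˣ)
    (h : ∀ r ∈ L, (((u : ZMod N)).cast : ZMod r) = (((u' : ZMod N)).cast : ZMod r)) :
    θ u = θ u' := by
  rw [hprod u, hprod u']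
  congr 1
  refine List.map_congr_left fun r hr => ?_
  rw [hpr r hr (hdvd r hr) u, hpr r hr (hdvd r hr) u']
  congr 1
  apply Units.ext
  rw [← cast_unit_eq (hdvd r hr) u, ← cast_unit_eq (hdvd r hr) u']
  exact h r hr

variable {K : Type*} [CommRing K] (ε : Δ →* Kˣ)

include hdvd hpr hprod in
/-- **the product of the local characters** at an integer `ℓ` congruent to the unit `u` modulo
every prime of `L`: `∏ ψ_r(ℓ) = ε'(θ u)` (twin of `L6Loc.chainPsi_eq`, `ℓ` need not be prime to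
`N`) -/
theorem chainPsi_eq_of_cast (hL : ∀ r ∈ L, r.Prime) (ℓ : ℕ) (u : (ZMod N)ˣ)
    (hu : ∀ r ∈ L, (((u : ZMod N)).cast : ZMod r) = ((ℓ : ℕ) : ZMod r)) :
    chainPsi (datumList θloc pr ε L hL) ℓ = ((sqrtChar ε (θ u) : Kˣ) : K) := by
  have key : ∀ (L : List ℕ) (hL : ∀ r ∈ L, r.Prime), (∀ r ∈ L, r ∣ N) →
      (∀ r ∈ L, ∀ (h : r ∣ N) (u : (ZMod N)ˣ), pr r (θ u) = θloc r (ZMod.unitsMap h u)) →
      (∀ r ∈ L, (((u : ZMod N)).cast : ZMod r) = ((ℓ : ℕ) : ZMod r)) →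
      chainPsi (datumList θloc pr ε L hL) ℓ
        = ((sqrtChar ε ((L.map fun r => pr r (θ u)).prod) : Kˣ) : K) := by
    intro L
    induction L with
    | nil => intro hL _ _ _; simp
    | cons r L ih =>
      intro hL hdvd hpr hu
      have hrN : r ∣ N := hdvd r (List.mem_cons_self ..)
      rw [datumList_cons, chainPsi_cons,
        ih _ (fun s hs => hdvd s (List.mem_cons_of_mem r hs))
          (fun s hs => hpr s (List.mem_cons_of_mem r hs))
          (fun s hs => hu s (List.mem_cons_of_mem r hs)),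
        List.map_cons, List.prod_cons, map_mul, Units.val_mul]
      congr 1
      have h1 : ((ℓ : ℕ) : ZMod r) = ((ZMod.unitsMap hrN u : (ZMod r)ˣ) : ZMod r) := by
        rw [← cast_unit_eq hrN u, hu r (List.mem_cons_self ..)]
      show (datum θloc pr ε r (hL r (List.mem_cons_self ..))).ψ ((ℓ : ℕ) : ZMod r) = _
      rw [h1, datum_ψ_coe, hpr r (List.mem_cons_self ..) hrN u]
  rw [key L hL hdvd hpr hu, ← hprod]

end Loc

/-! ### the final form -/

section Main

variable {N N' : ℕ} [NeZero N] [NeZero N'] {Δ : Type} [CommGroup Δ] [Fintype Δ]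
  (θ : (ZMod N)ˣ →* Δ) (hθ : Function.Surjective θ) (hodd : Odd (Nat.card Δ))
  (L : List ℕ) (hL : ∀ r ∈ L, r.Prime) (hnd : L.Nodup)
  (hdvd : ∀ r ∈ L, r ∣ N) (hsq : ∀ r ∈ L, ¬ r ^ 2 ∣ N) (hN' : N' = N * L.prod)
  (θloc : (r : ℕ) → (ZMod r)ˣ →* Δ) (pr : ℕ → Δ →* Δ)
  (hpr : ∀ r ∈ L, ∀ (h : r ∣ N) (u : (ZMod N)ˣ), pr r (θ u) = θloc r (ZMod.unitsMap h u))
  (hprod : ∀ u : (ZMod N)ˣ, θ u = (L.map fun r => pr r (θ u)).prod)
  (S : Set ℕ) (hS : ∀ r ∈ L, r ∈ S)
  {O : Type*} [CommRing O]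
  (dℓ : PrimesOff S → Gamma0 N)
  (hdℓ : ∀ (l : PrimesOff S) (u : (ZMod N)ˣ),
    (∀ r ∈ L, (((u : ZMod N)).cast : ZMod r) = ((l.1 : ℕ) : ZMod r)) →
      chi θ (dℓ l) ^ 2 * θ u = 1)

include hS in
theorem not_mem_of_primesOff (l : PrimesOff S) : (l.1 : ℕ) ∉ L := fun h => l.2 (hS _ h)

include hL hS hN' in
/-- a prime `l ∉ S` dividing `N'` divides `N` -/
theorem dvd_base_of_primesOff (l : PrimesOff S) (h : (l.1 : ℕ) ∣ N') : (l.1 : ℕ) ∣ N := by
  rw [hN'] at h
  rcases (Nat.Prime.dvd_mul l.1.2).mp h with h1 | h1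
  · exact h1
  · exfalso
    obtain ⟨a, ha, hla⟩ := (Prime.dvd_prod_iff (Nat.Prime.prime l.1.2)).mp h1
    have : (l.1 : ℕ) = a := (Nat.prime_dvd_prime_iff_eq l.1.2 (hL a ha)).mp hla
    exact not_mem_of_primesOff L S hS l (this ▸ ha)

include hθ hodd hL hnd hdvd hsq hpr hprod hdℓ hS hN' in
/-- **the twist ring homomorphism with `U`-generators**, coefficient field `K` as a parameter -/
theorem exists_twU_of_field {K : Type*} [Field K] [CharZero K] [Algebra O K]
    (hinj : Function.Injective (algebraMap O K))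
    [Fintype (Δ →* Kˣ)] [HasEnoughRootsOfUnity K (Monoid.exponent Δ)] :
    ∃ tw : ↥(heckeAlgebra N' 2 S) →+* Module.End O ↥(parabolicHoms O (GammaH θ) O),
      (∀ (l : PrimesOff S) (v : ↥(parabolicHoms O (GammaH θ) O)),
        ((tw (formsGenS N' S l) v : ↥(parabolicHoms O (GammaH θ) O)) :
            Additive (GammaH θ) →+ O)
          = diaH θ O (dℓ l) (genH θ O l.1 (v : Additive (GammaH θ) →+ O))) ∧
      (∀ {ℓ : ℕ} (hℓ : ℓ.Prime) (hℓN' : ¬ ℓ ∣ N') (hℓS : ℓ ∉ S)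
          (v : ↥(parabolicHoms O (GammaH θ) O)),
        ((tw (heckeAlgebra.T hℓ hℓN' hℓS) v : ↥(parabolicHoms O (GammaH θ) O)) :
            Additive (GammaH θ) →+ O)
          = diaH θ O (dℓ ⟨⟨ℓ, hℓ⟩, hℓS⟩)
              (genH θ O ⟨ℓ, hℓ⟩ (v : Additive (GammaH θ) →+ O))) ∧
      (∀ {q : ℕ} (hq : q.Prime) (hqN' : q ∣ N') (hqS : q ∉ S)
          (v : ↥(parabolicHoms O (GammaH θ) O)),
        ((tw (heckeAlgebra.U hq hqN' hqS) v : ↥(parabolicHoms O (GammaH θ) O)) :
            Additive (GammaH θ) →+ O)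
          = diaH θ O (dℓ ⟨⟨q, hq⟩, hqS⟩)
              (genH θ O ⟨q, hq⟩ (v : Additive (GammaH θ) →+ O))) := by
  classical
  have hNN' : N ∣ N' := GB.B4.Twist.TwFinal.dvd_level L hN'
  refine exists_twU_of_chains θ hθ S hNN' hinj
    (fun ε => datumList θloc pr ε L hL) dℓ ?_ ?_ ?_ ?_ ?_ ?_ ?_ ?_
  · -- hSU
    intro l hl
    refine ⟨dvd_base_of_primesOff L hL hN' S hS l hl, fun ε d hd => ?_⟩
    have hdr : d.r ∈ L := r_mem_of_mem_datumList θloc pr ε hd
    refine (Nat.coprime_primes l.1.2 (hL _ hdr)).mpr ?_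
    intro h
    exact not_mem_of_primesOff L S hS l (h ▸ hdr)
  · -- hadm
    intro ε
    exact adm θloc pr ε θ hodd L hL hdvd hpr
  · -- hlev
    intro ε
    rw [chainLevel_datumList, hN']
  · -- hsq
    intro ε d hd
    exact hsq _ (r_mem_of_mem_datumList θloc pr ε hd)
  · -- hnd
    intro ε
    have h := nodup_datumList θloc pr ε hL hnd
    exact (List.pairwise_map.mp h)
  · -- hψ
    intro ε
    exact trivial_or_sq_ne_one θloc pr ε hodd L hL
  · -- hν
    intro ε δ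
    rw [prod_ν_eq θloc pr ε θ L hL hprod hθ]
  · -- hc
    intro ε l
    obtain ⟨u, hu⟩ := exists_unit_cast L hL hnd hdvd (l.1 : ℕ) l.1.2
      (not_mem_of_primesOff L S hS l)
    rw [chainPsi_eq_of_cast θ L hdvd θloc pr hpr hprod ε hL (l.1 : ℕ) u hu, ← Units.val_mul,
      ← Units.val_one, Units.val_inj]
    have h1 := congrArg (sqrtChar ε) (hdℓ l u hu)
    rw [map_mul, map_pow, sqrtChar_sq_apply hodd, map_one] at h1
    exact h1

include hθ hodd hL hnd hdvd hsq hpr hprod hdℓ hS hN' in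
/-- **the twist ring homomorphism with `U`-generators** for a domain `O` of characteristic `0` -/
theorem exists_twU [IsDomain O] [CharZero O] :
    ∃ tw : ↥(heckeAlgebra N' 2 S) →+* Module.End O ↥(parabolicHoms O (GammaH θ) O),
      (∀ (l : PrimesOff S) (v : ↥(parabolicHoms O (GammaH θ) O)),
        ((tw (formsGenS N' S l) v : ↥(parabolicHoms O (GammaH θ) O)) :
            Additive (GammaH θ) →+ O)
          = diaH θ O (dℓ l) (genH θ O l.1 (v : Additive (GammaH θ) →+ O))) ∧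
      (∀ {ℓ : ℕ} (hℓ : ℓ.Prime) (hℓN' : ¬ ℓ ∣ N') (hℓS : ℓ ∉ S)
          (v : ↥(parabolicHoms O (GammaH θ) O)),
        ((tw (heckeAlgebra.T hℓ hℓN' hℓS) v : ↥(parabolicHoms O (GammaH θ) O)) :
            Additive (GammaH θ) →+ O)
          = diaH θ O (dℓ ⟨⟨ℓ, hℓ⟩, hℓS⟩)
              (genH θ O ⟨ℓ, hℓ⟩ (v : Additive (GammaH θ) →+ O))) ∧
      (∀ {q : ℕ} (hq : q.Prime) (hqN' : q ∣ N') (hqS : q ∉ S)
          (v : ↥(parabolicHoms O (GammaH θ) O)),
        ((tw (heckeAlgebra.U hq hqN' hqS) v : ↥(parabolicHoms O (GammaH θ) O)) :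
            Additive (GammaH θ) →+ O)
          = diaH θ O (dℓ ⟨⟨q, hq⟩, hqS⟩)
              (genH θ O ⟨q, hq⟩ (v : Additive (GammaH θ) →+ O))) := by
  classical
  letI : Fintype (Δ →* (AlgebraicClosure (FractionRing O))ˣ) := Fintype.ofFinite _
  have hinj : Function.Injective (algebraMap O (AlgebraicClosure (FractionRing O))) := by
    rw [IsScalarTower.algebraMap_eq O (FractionRing O) (AlgebraicClosure (FractionRing O))]
    exact (algebraMap (FractionRing O) (AlgebraicClosure (FractionRing O))).injective.comp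
      (IsFractionRing.injective O (FractionRing O))
  exact exists_twU_of_field θ hθ hodd L hL hnd hdvd hsq hN' θloc pr hpr hprod S hS dℓ hdℓ
    (K := AlgebraicClosure (FractionRing O)) hinj

include hθ hodd hL hnd hdvd hpr hprod hS in
/-- **the half-diamonds `dℓ l`** exist: `⟨dℓ l⟩ = ⟨l⟩^{-1/2}`, `l` read modulo the primes of `L` -/
theorem exists_dlU :
    ∃ dℓ : PrimesOff S → Gamma0 N,
      ∀ (l : PrimesOff S) (u : (ZMod N)ˣ),
        (∀ r ∈ L, (((u : ZMod N)).cast : ZMod r) = ((l.1 : ℕ) : ZMod r)) →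
          chi θ (dℓ l) ^ 2 * θ u = 1 := by
  classical
  obtain ⟨rep, hrep⟩ := exists_rep θ hθ
  choose u₀ hu₀ using fun l : PrimesOff S =>
    exists_unit_cast L hL hnd hdvd (l.1 : ℕ) l.1.2 (not_mem_of_primesOff L S hS l)
  refine ⟨fun l => rep (θ (u₀ l) ^ ((Nat.card Δ - 1) / 2)), fun l u hu => ?_⟩
  have hu' : θ u = θ (u₀ l) :=
    theta_eq_of_cast θ L hdvd θloc pr hpr hprod u (u₀ l)
      (fun r hr => by rw [hu r hr, hu₀ l r hr])
  rw [hrep, hu', ← pow_mul, ← pow_succ]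
  obtain ⟨k, hk⟩ := hodd
  have h1 : (Nat.card Δ - 1) / 2 * 2 + 1 = Nat.card Δ := by
    rw [hk]
    omega
  rw [h1, pow_card_eq_one']

end Main

/-! ### local characters from idempotent-like endomorphisms -/

section Pr

variable {N N' : ℕ} [NeZero N] [NeZero N'] {Δ : Type} [CommGroup Δ] [Fintype Δ]
  (θ : (ZMod N)ˣ →* Δ) (pr : ℕ → Δ →* Δ)
  (hθ : Function.Surjective θ) (hodd : Odd (Nat.card Δ))
  (L : List ℕ) (hL : ∀ r ∈ L, r.Prime) (hnd : L.Nodup)
  (hdvd : ∀ r ∈ L, r ∣ N) (hsq : ∀ r ∈ L, ¬ r ^ 2 ∣ N) (hN' : N' = N * L.prod)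
  (hpr1 : ∀ r ∈ L, ∀ (h : r ∣ N) (u : (ZMod N)ˣ), ZMod.unitsMap h u = 1 → pr r (θ u) = 1)
  (hprod : ∀ u : (ZMod N)ˣ, θ u = (L.map fun r => pr r (θ u)).prod)
  (S : Set ℕ) (hS : ∀ r ∈ L, r ∈ S)
  {O : Type*} [CommRing O] [IsDomain O] [CharZero O]
  (dℓ : PrimesOff S → Gamma0 N)
  (hdℓ : ∀ (l : PrimesOff S) (u : (ZMod N)ˣ),
    (∀ r ∈ L, (((u : ZMod N)).cast : ZMod r) = ((l.1 : ℕ) : ZMod r)) →
      chi θ (dℓ l) ^ 2 * θ u = 1)

include hθ hodd hL hnd hdvd hsq hpr1 hprod hdℓ hS hN' in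
/-- **the twist ring homomorphism with `U`-generators**, local structure given by the endomorphisms
`pr r` only -/
theorem exists_twU_of_pr :
    ∃ tw : ↥(heckeAlgebra N' 2 S) →+* Module.End O ↥(parabolicHoms O (GammaH θ) O),
      (∀ (l : PrimesOff S) (v : ↥(parabolicHoms O (GammaH θ) O)),
        ((tw (formsGenS N' S l) v : ↥(parabolicHoms O (GammaH θ) O)) :
            Additive (GammaH θ) →+ O)
          = diaH θ O (dℓ l) (genH θ O l.1 (v : Additive (GammaH θ) →+ O))) ∧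
      (∀ {ℓ : ℕ} (hℓ : ℓ.Prime) (hℓN' : ¬ ℓ ∣ N') (hℓS : ℓ ∉ S)
          (v : ↥(parabolicHoms O (GammaH θ) O)),
        ((tw (heckeAlgebra.T hℓ hℓN' hℓS) v : ↥(parabolicHoms O (GammaH θ) O)) :
            Additive (GammaH θ) →+ O)
          = diaH θ O (dℓ ⟨⟨ℓ, hℓ⟩, hℓS⟩)
              (genH θ O ⟨ℓ, hℓ⟩ (v : Additive (GammaH θ) →+ O))) ∧
      (∀ {q : ℕ} (hq : q.Prime) (hqN' : q ∣ N') (hqS : q ∉ S)
          (v : ↥(parabolicHoms O (GammaH θ) O)),
        ((tw (heckeAlgebra.U hq hqN' hqS) v : ↥(parabolicHoms O (GammaH θ) O)) :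
            Additive (GammaH θ) →+ O)
          = diaH θ O (dℓ ⟨⟨q, hq⟩, hqS⟩)
              (genH θ O ⟨q, hq⟩ (v : Additive (GammaH θ) →+ O))) :=
  exists_twU θ hθ hodd L hL hnd hdvd hsq hN' (θlocOf θ pr) pr
    (fun r hr h u => θlocOf_apply θ pr h (hpr1 r hr h) u) hprod S hS dℓ hdℓ

include hθ hodd hL hnd hdvd hpr1 hprod hS in
/-- the half-diamonds exist, local structure given by the endomorphisms `pr r` only -/
theorem exists_dlU_of_pr :
    ∃ dℓ : PrimesOff S → Gamma0 N,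
      ∀ (l : PrimesOff S) (u : (ZMod N)ˣ),
        (∀ r ∈ L, (((u : ZMod N)).cast : ZMod r) = ((l.1 : ℕ) : ZMod r)) →
          chi θ (dℓ l) ^ 2 * θ u = 1 :=
  exists_dlU θ hθ hodd L hL hnd hdvd (θlocOf θ pr) pr
    (fun r hr h u => θlocOf_apply θ pr h (hpr1 r hr h) u) hprod S hS

end Pr

/-! ### products of characters -/

section Pi

variable {j : ℕ} (Δs : ℕ → Type) [∀ i, CommGroup (Δs i)] (r : ℕ → ℕ)
variable {N N' : ℕ} [NeZero N] [NeZero N'] [∀ i, Fintype (Δs i)]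
  (ψ : ∀ i, (ZMod N)ˣ →* Δs i)
  (hprime : ∀ i : Fin j, (r i).Prime) (hinj : ∀ i i' : Fin j, r i = r i' → i = i')
  (hdvd : ∀ i : Fin j, r i ∣ N) (hsq : ∀ i : Fin j, ¬ r i ^ 2 ∣ N)
  (hfac : ∀ (i : Fin j) (h : r i ∣ N) (u : (ZMod N)ˣ), ZMod.unitsMap h u = 1 → ψ i u = 1)
  (hsurj : Function.Surjective (Theta Δs ψ j))
  (hodd : Odd (Nat.card (∀ i : Fin j, Δs i)))
  (hN' : N' = N * ∏ i : Fin j, r i)
  (S : Set ℕ) (hS : ∀ i : Fin j, r i ∈ S)
  {O : Type*} [CommRing O] [IsDomain O] [CharZero O]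
  (dℓ : PrimesOff S → Gamma0 N)
  (hdℓ : ∀ (l : PrimesOff S) (u : (ZMod N)ˣ),
    (∀ i : Fin j, (((u : ZMod N)).cast : ZMod (r i)) = ((l.1 : ℕ) : ZMod (r i))) →
      chi (Theta Δs ψ j) (dℓ l) ^ 2 * Theta Δs ψ j u = 1)

include hprime hinj hdvd hsq hfac hsurj hodd hdℓ hS hN' in
/-- **the twist ring homomorphism with `U`-generators for a product of characters of prime
conductors** -/
theorem exists_twU_pi :
    ∃ tw : ↥(heckeAlgebra N' 2 S) →+*
        Module.End O ↥(parabolicHoms O (GammaH (Theta Δs ψ j)) O),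
      (∀ (l : PrimesOff S) (v : ↥(parabolicHoms O (GammaH (Theta Δs ψ j)) O)),
        ((tw (formsGenS N' S l) v : ↥(parabolicHoms O (GammaH (Theta Δs ψ j)) O)) :
            Additive (GammaH (Theta Δs ψ j)) →+ O)
          = diaH (Theta Δs ψ j) O (dℓ l) (genH (Theta Δs ψ j) O l.1
              (v : Additive (GammaH (Theta Δs ψ j)) →+ O))) ∧
      (∀ {ℓ : ℕ} (hℓ : ℓ.Prime) (hℓN' : ¬ ℓ ∣ N') (hℓS : ℓ ∉ S)
          (v : ↥(parabolicHoms O (GammaH (Theta Δs ψ j)) O)),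
        ((tw (heckeAlgebra.T hℓ hℓN' hℓS) v : ↥(parabolicHoms O (GammaH (Theta Δs ψ j)) O)) :
            Additive (GammaH (Theta Δs ψ j)) →+ O)
          = diaH (Theta Δs ψ j) O (dℓ ⟨⟨ℓ, hℓ⟩, hℓS⟩)
              (genH (Theta Δs ψ j) O ⟨ℓ, hℓ⟩ (v : Additive (GammaH (Theta Δs ψ j)) →+ O))) ∧
      (∀ {q : ℕ} (hq : q.Prime) (hqN' : q ∣ N') (hqS : q ∉ S)
          (v : ↥(parabolicHoms O (GammaH (Theta Δs ψ j)) O)),
        ((tw (heckeAlgebra.U hq hqN' hqS) v : ↥(parabolicHoms O (GammaH (Theta Δs ψ j)) O)) :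
            Additive (GammaH (Theta Δs ψ j)) →+ O)
          = diaH (Theta Δs ψ j) O (dℓ ⟨⟨q, hq⟩, hqS⟩)
              (genH (Theta Δs ψ j) O ⟨q, hq⟩
                (v : Additive (GammaH (Theta Δs ψ j)) →+ O))) := by
  classical
  have hN'' : N' = N * (List.ofFn fun i : Fin j => r i).prod := by
    rw [List.prod_ofFn]
    exact hN'
  refine exists_twU_of_pr (Theta Δs ψ j) (prFam Δs r) hsurj hodd
    (List.ofFn fun i : Fin j => r i) ?_ ?_ ?_ ?_ hN'' ?_ ?_ S ?_ dℓ ?_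
  · -- primes
    intro r' hr'
    obtain ⟨i, rfl⟩ := List.mem_ofFn.mp hr'
    exact hprime i
  · -- distinct
    rw [List.nodup_ofFn]
    exact fun i i' h => hinj i i' h
  · -- divide N
    intro r' hr'
    obtain ⟨i, rfl⟩ := List.mem_ofFn.mp hr'
    exact hdvd i
  · -- exactly
    intro r' hr'
    obtain ⟨i, rfl⟩ := List.mem_ofFn.mp hr'
    exact hsq i
  · -- hpr1
    intro r' hr' h u hu
    obtain ⟨i, rfl⟩ := List.mem_ofFn.mp hr'
    funext i'
    rw [prFam_apply, Theta_apply]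
    split_ifs with hi
    · have : i' = i := hinj i' i hi
      subst this
      exact hfac i' h u hu
    · rfl
  · -- hprod
    intro u
    funext i
    rw [Pi.list_prod_apply, List.map_map, List.map_ofFn, List.prod_ofFn]
    symm
    rw [Finset.prod_eq_single i]
    · show prFam Δs r (r i) (Theta Δs ψ j u) i = _
      rw [prFam_apply, if_pos rfl]
    · intro i' _ hii
      show prFam Δs r (r i') (Theta Δs ψ j u) i = 1
      rw [prFam_apply, if_neg (fun h => hii (hinj i i' h).symm)]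
    · intro h
      exact absurd (Finset.mem_univ i) h
  · -- hS
    intro r' hr'
    obtain ⟨i, rfl⟩ := List.mem_ofFn.mp hr'
    exact hS i
  · -- hdℓ
    intro l u hu
    exact hdℓ l u (fun i => hu (r i) (List.mem_ofFn.mpr ⟨i, rfl⟩))

include hprime hinj hdvd hfac hsurj hodd hS in
/-- the half-diamonds exist, product of characters of prime conductors -/
theorem exists_dlU_pi :
    ∃ dℓ : PrimesOff S → Gamma0 N,
      ∀ (l : PrimesOff S) (u : (ZMod N)ˣ),
        (∀ i : Fin j, (((u : ZMod N)).cast : ZMod (r i)) = ((l.1 : ℕ) : ZMod (r i))) →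
          chi (Theta Δs ψ j) (dℓ l) ^ 2 * Theta Δs ψ j u = 1 := by
  classical
  have h1 : ∀ r' ∈ (List.ofFn fun i : Fin j => r i), r'.Prime := by
    intro r' hr'
    obtain ⟨i, rfl⟩ := List.mem_ofFn.mp hr'
    exact hprime i
  have h2 : (List.ofFn fun i : Fin j => r i).Nodup := by
    rw [List.nodup_ofFn]
    exact fun i i' h => hinj i i' h
  have h3 : ∀ r' ∈ (List.ofFn fun i : Fin j => r i), r' ∣ N := by
    intro r' hr'
    obtain ⟨i, rfl⟩ := List.mem_ofFn.mp hr'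
    exact hdvd i
  have h4 : ∀ r' ∈ (List.ofFn fun i : Fin j => r i), ∀ (h : r' ∣ N) (u : (ZMod N)ˣ),
      ZMod.unitsMap h u = 1 → prFam Δs r r' (Theta Δs ψ j u) = 1 := by
    intro r' hr' h u hu
    obtain ⟨i, rfl⟩ := List.mem_ofFn.mp hr'
    funext i'
    rw [prFam_apply, Theta_apply]
    split_ifs with hi
    · have : i' = i := hinj i' i hi
      subst this
      exact hfac i' h u hu
    · rfl
  have h5 : ∀ u : (ZMod N)ˣ, Theta Δs ψ j u
      = ((List.ofFn fun i : Fin j => r i).map fun r' => prFam Δs r r' (Theta Δs ψ j u)).prod := by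
    intro u
    funext i
    rw [Pi.list_prod_apply, List.map_map, List.map_ofFn, List.prod_ofFn]
    symm
    rw [Finset.prod_eq_single i]
    · show prFam Δs r (r i) (Theta Δs ψ j u) i = _
      rw [prFam_apply, if_pos rfl]
    · intro i' _ hii
      show prFam Δs r (r i') (Theta Δs ψ j u) i = 1
      rw [prFam_apply, if_neg (fun h => hii (hinj i i' h).symm)]
    · intro h
      exact absurd (Finset.mem_univ i) h
  have h6 : ∀ r' ∈ (List.ofFn fun i : Fin j => r i), r' ∈ S := by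
    intro r' hr'
    obtain ⟨i, rfl⟩ := List.mem_ofFn.mp hr'
    exact hS i
  obtain ⟨dℓ, h⟩ := exists_dlU_of_pr (Theta Δs ψ j) (prFam Δs r) hsurj hodd
    (List.ofFn fun i : Fin j => r i) h1 h2 h3 h4 h5 S h6
  refine ⟨dℓ, fun l u hu => h l u (fun r' hr' => ?_)⟩
  obtain ⟨i, rfl⟩ := List.mem_ofFn.mp hr'
  exact hu i

end Pi

/-! ### Taylor–Wiles prime data -/

section PrimeDataSec

variable {N p K : ℕ} [NeZero N] {r e N' : ℕ → ℕ} (H : PrimeData N p K r e N')
variable {N'' : ℕ} [NeZero N''] (hp : p.Prime) (hp2 : p ≠ 2) (j : ℕ) (hj : j ≤ K)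
  (hN'' : N'' = N * ∏ i : Fin j, r i)
  (S : Set ℕ) (hS : ∀ i : Fin j, r i ∈ S)
  {O : Type*} [CommRing O] [IsDomain O] [CharZero O]
  (dℓ : PrimesOff S → Gamma0 N)
  (hdℓ : ∀ (l : PrimesOff S) (u : (ZMod N)ˣ),
    (∀ i : Fin j, (((u : ZMod N)).cast : ZMod (r i)) = ((l.1 : ℕ) : ZMod (r i))) →
      chi (Theta (fun i => Multiplicative (ZMod (p ^ e i))) H.psi j) (dℓ l) ^ 2
        * Theta (fun i => Multiplicative (ZMod (p ^ e i))) H.psi j u = 1)

include H hj in
theorem primeData_inj (i i' : Fin j) (h : r i = r i') : i = i' := by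
  have hlt : ∀ i : Fin j, (i : ℕ) < K := fun i => lt_of_lt_of_le i.2 hj
  by_contra hne
  exact H.inj i i' (hlt i) (hlt i') (fun h' => hne (Fin.ext h')) h

include H hj in
theorem primeData_not_sq (i : Fin j) : ¬ r i ^ 2 ∣ N := by
  have hlt : (i : ℕ) < K := lt_of_lt_of_le i.2 hj
  intro hsq
  have hfact := H.fact i hlt
  have hcop := H.cop i hlt
  rw [hfact, pow_two] at hsq
  have h1 : r i ∣ N' i := Nat.dvd_of_mul_dvd_mul_left (H.prime i hlt).pos hsq
  have h2 : r i ∣ Nat.gcd (r i) (N' i) := Nat.dvd_gcd dvd_rfl h1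
  rw [hcop.gcd_eq_one, Nat.dvd_one] at h2
  exact (H.prime i hlt).one_lt.ne' h2

include hp hp2 hj hdℓ hS hN'' in
/-- **the twist ring homomorphism with `U`-generators at B3's stage**
`GammaH (Theta (Δs p e) H.psi j)`, `j ≤ K`: the primes `l ∣ N` other than `r 0, …, r (j-1)` may be
outside `S`, and then `tw (U_l) = ⟨dℓ l⟩ ∘ U_l` -/
theorem exists_twU_primeData :
    ∃ tw : ↥(heckeAlgebra N'' 2 S) →+* Module.End O ↥(parabolicHoms O
        (GammaH (Theta (fun i => Multiplicative (ZMod (p ^ e i))) H.psi j)) O),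
      (∀ (l : PrimesOff S) (v : ↥(parabolicHoms O
          (GammaH (Theta (fun i => Multiplicative (ZMod (p ^ e i))) H.psi j)) O)),
        ((tw (formsGenS N'' S l) v : ↥(parabolicHoms O
            (GammaH (Theta (fun i => Multiplicative (ZMod (p ^ e i))) H.psi j)) O)) :
            Additive (GammaH (Theta (fun i => Multiplicative (ZMod (p ^ e i))) H.psi j)) →+ O)
          = diaH (Theta (fun i => Multiplicative (ZMod (p ^ e i))) H.psi j) O (dℓ l)
              (genH (Theta (fun i => Multiplicative (ZMod (p ^ e i))) H.psi j) O l.1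
                (v : Additive (GammaH
                  (Theta (fun i => Multiplicative (ZMod (p ^ e i))) H.psi j)) →+ O))) ∧
      (∀ {ℓ : ℕ} (hℓ : ℓ.Prime) (hℓN' : ¬ ℓ ∣ N'') (hℓS : ℓ ∉ S)
          (v : ↥(parabolicHoms O
            (GammaH (Theta (fun i => Multiplicative (ZMod (p ^ e i))) H.psi j)) O)),
        ((tw (heckeAlgebra.T hℓ hℓN' hℓS) v : ↥(parabolicHoms O
            (GammaH (Theta (fun i => Multiplicative (ZMod (p ^ e i))) H.psi j)) O)) :
            Additive (GammaH (Theta (fun i => Multiplicative (ZMod (p ^ e i))) H.psi j)) →+ O)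
          = diaH (Theta (fun i => Multiplicative (ZMod (p ^ e i))) H.psi j) O
              (dℓ ⟨⟨ℓ, hℓ⟩, hℓS⟩)
              (genH (Theta (fun i => Multiplicative (ZMod (p ^ e i))) H.psi j) O ⟨ℓ, hℓ⟩
                (v : Additive (GammaH
                  (Theta (fun i => Multiplicative (ZMod (p ^ e i))) H.psi j)) →+ O))) ∧
      (∀ {q : ℕ} (hq : q.Prime) (hqN' : q ∣ N'') (hqS : q ∉ S)
          (v : ↥(parabolicHoms O
            (GammaH (Theta (fun i => Multiplicative (ZMod (p ^ e i))) H.psi j)) O)),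
        ((tw (heckeAlgebra.U hq hqN' hqS) v : ↥(parabolicHoms O
            (GammaH (Theta (fun i => Multiplicative (ZMod (p ^ e i))) H.psi j)) O)) :
            Additive (GammaH (Theta (fun i => Multiplicative (ZMod (p ^ e i))) H.psi j)) →+ O)
          = diaH (Theta (fun i => Multiplicative (ZMod (p ^ e i))) H.psi j) O
              (dℓ ⟨⟨q, hq⟩, hqS⟩)
              (genH (Theta (fun i => Multiplicative (ZMod (p ^ e i))) H.psi j) O ⟨q, hq⟩
                (v : Additive (GammaH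
                  (Theta (fun i => Multiplicative (ZMod (p ^ e i))) H.psi j)) →+ O))) := by
  classical
  haveI : ∀ i, Fintype (Multiplicative (ZMod (p ^ e i))) := fun i => by
    haveI : NeZero (p ^ e i) := ⟨pow_ne_zero _ hp.ne_zero⟩
    infer_instance
  have hlt : ∀ i : Fin j, (i : ℕ) < K := fun i => lt_of_lt_of_le i.2 hj
  exact exists_twU_pi (fun i => Multiplicative (ZMod (p ^ e i))) r H.psi
    (fun i => H.prime i (hlt i)) (primeData_inj H j hj) (fun i => H.dvd i (hlt i))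
    (primeData_not_sq H j hj) (fun i h u hu => H.psi_eq_one_of_unitsMap i (hlt i) u hu)
    (Theta_surjective H j hj) (odd_card_pi hp hp2 e j) hN'' S hS dℓ hdℓ

include hp hp2 hj hS in
/-- the half-diamonds exist at B3's stage -/
theorem exists_dlU_primeData :
    ∃ dℓ : PrimesOff S → Gamma0 N,
      ∀ (l : PrimesOff S) (u : (ZMod N)ˣ),
        (∀ i : Fin j, (((u : ZMod N)).cast : ZMod (r i)) = ((l.1 : ℕ) : ZMod (r i))) →
          chi (Theta (fun i => Multiplicative (ZMod (p ^ e i))) H.psi j) (dℓ l) ^ 2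
            * Theta (fun i => Multiplicative (ZMod (p ^ e i))) H.psi j u = 1 := by
  classical
  haveI : ∀ i, Fintype (Multiplicative (ZMod (p ^ e i))) := fun i => by
    haveI : NeZero (p ^ e i) := ⟨pow_ne_zero _ hp.ne_zero⟩
    infer_instance
  have hlt : ∀ i : Fin j, (i : ℕ) < K := fun i => lt_of_lt_of_le i.2 hj
  exact exists_dlU_pi (fun i => Multiplicative (ZMod (p ^ e i))) r H.psi
    (fun i => H.prime i (hlt i)) (primeData_inj H j hj) (fun i => H.dvd i (hlt i))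
    (fun i h u hu => H.psi_eq_one_of_unitsMap i (hlt i) u hu)
    (Theta_surjective H j hj) (odd_card_pi hp hp2 e j) S hS

end PrimeDataSec

end GB.B7.TwUInst

end

end Fermat.Agent.GE8.P3B
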