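/-
GATE-B / S43, node GB-B7-TKILL (helper52): **`kill₁` — the assembly** (the binder `he` of helper51's
`LevelMulti.nonempty_TWInput_multi`, hole G7 of ProviderFlat).

* `trace_sq_kill_of_equiv` (abstract layer): `M₁ ≃ Hom(Γ_H(θ), O)_𝔪` (any `O`-linear `E`), a twisted
  Hecke action `tw₁` on the primary part with the `T`-formula `tw₁ (T_ℓ) = ⟨dℓ ℓ⟩ T_ℓ` and
  `tw₁ (U_q)² = 1`, a local `O`-algebra `T_Q` acting on `M₁` through `a₁` with reduced image, such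
  that `a₁ (τ_ℓ)` corresponds to `⟨dℓ ℓ⟩ T_ℓ` under `E` (`hgen`) and `a₁ (T_Q)` is generated by the
  `a₁ (τ_ℓ)` (`hspan`), `ρ_Q` with the good Frobenius characteristic polynomials
  ⟹ `a₁ ((tr ρ_Q σ)² − (1+q)²) = 0` for every Frobenius `σ` at `q`
  (`TKill.trace_sq_kill` for the conjugate of `tw₁` by `E`; `hcomm` is automatic).
* `he_of_hgen` (tower layer): `θ = θ_k = Theta (Δs p e) H.psi k`, the stage of the B3 tower at level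
  `N q` without the character at the framed prime `q`; `tw₁` := `ThetaQ.exists_tw₁_of_base`
  (`UqOne.exists_tw₁` over `Hom(Γ₀(N), O)_𝔪 = 0`); the half-diamond `d` in `hgen` is ANY element of
  `Γ₀(N q)` with `χ_{θ_k}(d)² θ_k(ℓ) = 1` (squaring is injective on `Δ`).
* `Theta_eq_of_cast`, `half_of_big` : helper44's half-diamond condition at the big stage gives the
  one at the stage `k`.
* **`he_of_big`** : the same on `M¹_Q = (Plug.tw Sy 𝔪 H h 1 k c hc hc1).L1.M` through helper95's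
  `L1Iso.L1Equiv`, with `hgen` in BIG-LEVEL form: `a₁ (τ_ℓ)` is induced by an operator of
  `Plug.bigLevel … (1 + k)` which is `⟨d⟩ T_ℓ` on `Hom(Γ_H(θ_{1+k}), O)`.
-/
import Mathlib
import Fermat.Agent.GB.B7.TKill
import Fermat.Agent.GE8.P3B.GB.B7.ThetaQ
import Fermat.Agent.GE8.P3B.GB.B3.L1Iso
import Fermat.Agent.GE8.P3B.StepGen
import Fermat.Agent.GE8.P3B.Ok3W

/- TWIN (helper6 B4 generator; conventions of helper24 / helper86) of `Fermat.Agent.GB.B7.Kill1Asm` with `p ≠ 3` relaxed to `Ok3A Sy 𝔪 p` / `Ok3W p W` (RISK-5 fix (B), step B4); everything below lives in the wrapper namespace `Fermat.Agent.GE8.P3B`. -/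
set_option linter.dupNamespace false
open Fermat Fermat.Agent Fermat.Agent.GB Fermat.Agent.GB.B3 Fermat.Agent.GB.B3.ChiLevelMulti Fermat.Agent.GB.B3.EisGamma0 Fermat.Agent.GB.B3.GamH Fermat.Agent.GB.B3.HeckeAct Fermat.Agent.GB.B3.HeckeActH Fermat.Agent.GB.B3.RealLevel Fermat.Agent.GB.B3.TWChars Fermat.Agent.GB.B3.TWLevel Fermat.Agent.GB.B4 Fermat.Agent.GB.B4.Twist Fermat.Agent.GB.B7 Fermat.Agent.GJ Fermat.Agent.GJ.J2 Fermat.Agent.GJ.J2.Lat Fermat.Agent.GM Fermat.Agent.GM.B Fermat.Agent.GM.EisClass Fermat.Agent.S16_helper49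

namespace Fermat.Agent.GE8.P3B

set_option autoImplicit false
set_option linter.unusedSectionVars false
set_option linter.style.haveILetI false

noncomputable section

open scoped MatrixGroups
open CongruenceSubgroup Polynomial IsLocalRing CuspForm
open GM.B
open GB.B3 GB.B3.EisGamma0 GB.B3.GamH
open GB.B3.RealLevel GB.B3.HeckeActH GB.B3.HeckeAct
open GB.B3.TWChars GB.B3.Tower GB.B3.FinalTW
open GJ.J2.Lat

namespace GB.B7.Kill1Asm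

/-- `G_ℚ`. -/
local notation "GQ" => AlgebraicClosure ℚ ≃ₐ[ℚ] AlgebraicClosure ℚ
/-- `ℚ̄`. -/
local notation "Qb" => AlgebraicClosure ℚ

/-! ### the abstract layer -/

section Abstract

variable {N₀ : ℕ} [NeZero N₀] (Sy : Symbols N₀) {Δ : Type} [CommGroup Δ] (θ : (ZMod N₀)ˣ →* Δ)
  {O : Type} [CommRing O] [IsDomain O] [IsDiscreteValuationRing O]
  [IsAdicComplete (maximalIdeal O) O] [CharZero O] [Finite (ResidueField O)]
  (𝔪 : Ideal (Sy.𝕋 O))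
  {M₁ : Type} [AddCommGroup M₁] [Module O M₁] [Module.Finite O M₁] [Module.Free O M₁]
  (E : M₁ ≃ₗ[O] ↥(Base.locSub (actH Sy O θ) 𝔪))
  {TQ : Type} [CommRing TQ] [IsLocalRing TQ] [Algebra O TQ]
  {N₁ : ℕ} [NeZero N₁]

/-- **`kill₁`, abstract layer.** -/
theorem trace_sq_kill_of_equiv
    (lam : ℕ) [Fact lam.Prime] (hlamO : (lam : O) ∈ maximalIdeal O)
    (ρ : GaloisRepAdic TQ) (a₁ : TQ →ₐ[O] Module.End O M₁)
    (hred : ∀ t : TQ, a₁ t * a₁ t = 0 → a₁ t = 0)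
    (S' Sbig : Finset ℕ) (hS : S' ⊆ Sbig) (hlamS : lam ∈ Sbig)
    (hNS : ∀ r : ℕ, r.Prime → r ∣ N₁ → r ∈ Sbig)
    (q : ℕ) (hq : q.Prime) (hqlam : q ≠ lam) (hqN : q ∣ N₁) (hq2 : ¬ q ^ 2 ∣ N₁)
    (hqS' : q ∉ (↑S' : Set ℕ))
    (hN₁N : ∀ ℓ : ℕ, ℓ.Prime → ¬ ℓ ∣ N₁ → ¬ ℓ ∣ N₀)
    (dℓ : PrimesOff (↑S' : Set ℕ) → Gamma0 N₀)
    (tw₁ : heckeAlgebra N₁ 2 (↑S' : Set ℕ) →+*
      Module.End O ↥(Base.locSub (actH Sy O θ) 𝔪))
    (hT : ∀ {ℓ : ℕ} (hℓ : ℓ.Prime) (hℓN₁ : ¬ ℓ ∣ N₁) (hℓS : ℓ ∉ (↑S' : Set ℕ))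
        (hℓN : ¬ ℓ ∣ N₀) (y : ↥(Base.locSub (actH Sy O θ) 𝔪)),
      haveI : Fact ℓ.Prime := ⟨hℓ⟩
      ((tw₁ (heckeAlgebra.T hℓ hℓN₁ hℓS) y : ↥(Base.locSub (actH Sy O θ) 𝔪)) :
          Additive (GammaH θ) →+ O)
        = diaH θ O (dℓ ⟨⟨ℓ, hℓ⟩, hℓS⟩) (TH θ O hℓN (y : Additive (GammaH θ) →+ O)))
    (hU : tw₁ (heckeAlgebra.U hq hqN hqS') ^ 2 = 1)
    (τ : ℕ → TQ)
    (hgen : ∀ (ℓ : ℕ) (hℓ : ℓ.Prime) (_ : ¬ ℓ ∣ N₁) (hℓS : ℓ ∉ (↑Sbig : Set ℕ))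
        (hℓN : ¬ ℓ ∣ N₀) (y : M₁),
      haveI : Fact ℓ.Prime := ⟨hℓ⟩
      ((E (a₁ (τ ℓ) y) : ↥(Base.locSub (actH Sy O θ) 𝔪)) : Additive (GammaH θ) →+ O)
        = diaH θ O (dℓ ⟨⟨ℓ, hℓ⟩, fun h => hℓS (Finset.coe_subset.2 hS h)⟩)
            (TH θ O hℓN ((E y : ↥(Base.locSub (actH Sy O θ) 𝔪)) : Additive (GammaH θ) →+ O)))
    (hspan : ∀ t : TQ, a₁ t ∈ Algebra.adjoin O
      {f : Module.End O M₁ | ∃ ℓ : ℕ, ℓ.Prime ∧ ¬ ℓ ∣ N₁ ∧ ℓ ∉ (↑Sbig : Set ℕ) ∧ f = a₁ (τ ℓ)})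
    (hρ : ∀ ℓ : ℕ, ℓ.Prime → ¬ ℓ ∣ N₁ → ℓ ∉ (↑Sbig : Set ℕ) →
      ∀ A : ValuationSubring Qb, A.LiesOverPrime ℓ → ∀ σ : GQ, A.IsFrobeniusAt σ ℓ →
        LinearMap.charpoly (ρ.ρ σ) = X ^ 2 - C (τ ℓ) * X + C ((ℓ : TQ))) :
    ∀ A : ValuationSubring Qb, A.LiesOverPrime q → ∀ σ : GQ, A.IsFrobeniusAt σ q →
      a₁ (ρ.trace σ ^ 2 - (1 + (q : TQ)) ^ 2) = 0 := by
  -- the conjugate action on `M₁`
  let cj : Module.End O ↥(Base.locSub (actH Sy O θ) 𝔪) ≃+* Module.End O M₁ :=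
    E.symm.conjRingEquiv
  have hcj : ∀ (f : Module.End O ↥(Base.locSub (actH Sy O θ) 𝔪)) (y : M₁),
      E (cj f y) = f (E y) := by
    intro f y
    show E (E.symm.conj f y) = f (E y)
    rw [LinearEquiv.conj_apply_apply, LinearEquiv.symm_symm, LinearEquiv.apply_symm_apply]
  let tw₁' : heckeAlgebra N₁ 2 (↑S' : Set ℕ) →+* Module.End O M₁ :=
    (cj : _ →+* _).comp tw₁
  have hU' : tw₁' (heckeAlgebra.U hq hqN hqS') ^ 2 = 1 := by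
    show cj (tw₁ (heckeAlgebra.U hq hqN hqS')) ^ 2 = 1
    rw [← map_pow, hU, map_one]
  have hτ : ∀ (ℓ : ℕ) (hℓ : ℓ.Prime) (hℓN : ¬ ℓ ∣ N₁) (hℓS : ℓ ∉ (↑Sbig : Set ℕ)),
      a₁ (τ ℓ) = tw₁' (heckeAlgebra.T hℓ hℓN (fun h => hℓS (Finset.coe_subset.2 hS h))) := by
    intro ℓ hℓ hℓN₁ hℓS
    refine LinearMap.ext fun y => ?_
    apply E.injective
    show E (a₁ (τ ℓ) y) = E (cj (tw₁ _) y)
    rw [hcj]
    apply Subtype.ext
    rw [hgen ℓ hℓ hℓN₁ hℓS (hN₁N ℓ hℓ hℓN₁) y, hT hℓ hℓN₁ _ (hN₁N ℓ hℓ hℓN₁)]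
  have hcomm : ∀ t s, Commute (a₁ t) (tw₁' s) := by
    intro t s
    refine Algebra.adjoin_induction (p := fun f _ => Commute f (tw₁' s)) ?_ ?_ ?_ ?_ (hspan t)
    · rintro f ⟨ℓ, hℓ, hℓN₁, hℓS, rfl⟩
      rw [hτ ℓ hℓ hℓN₁ hℓS]
      exact (Commute.all _ s).map tw₁'
    · intro c
      exact Algebra.commute_algebraMap_left c _
    · intro f g _ _ hf hg
      exact hf.add_left hg
    · intro f g _ _ hf hg
      exact hf.mul_left hg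
  exact GB.B7.TKill.trace_sq_kill lam hlamO ρ a₁ hred S' Sbig hS hlamS hNS q hq hqlam
    hqN hq2 hqS' tw₁' hcomm hU' τ hτ hρ

end Abstract

/-! ### the tower layer -/

/-- in a finite commutative group of odd order squaring is injective -/
theorem eq_of_sq_eq_of_odd {G : Type*} [CommGroup G] [Finite G] (hodd : Odd (Nat.card G))
    {x y : G} (h : x ^ 2 = y ^ 2) : x = y := by
  have h1 : (x / y) ^ 2 = 1 := by rw [div_pow, h, div_self']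
  have h2 : orderOf (x / y) ∣ 2 := orderOf_dvd_of_pow_eq_one h1
  have h3 : orderOf (x / y) ∣ Nat.card G := orderOf_dvd_natCard _
  have h4 : Nat.Coprime 2 (Nat.card G) := (Nat.coprime_two_left).mpr hodd
  have h5 : orderOf (x / y) = 1 := Nat.eq_one_of_dvd_coprimes h4 h2 h3
  rw [orderOf_eq_one_iff, div_eq_one] at h5
  exact h5

section TowerLayer

open GB.B3.LocTransport GB.B7.TwUInst GB.B4.Twist.TwInst
  S16_helper49 ModularCurve.Period GM.EisClass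

variable {N q p K : ℕ} [NeZero N] [NeZero (N * q)] [hqF : Fact q.Prime] [hpF : Fact p.Prime]
  {r e N'' : ℕ → ℕ}
variable (Sy : Symbols (N * q)) (hrN : ∀ j, Sy.r j ∣ N) (hqN : ¬ q ∣ N)
variable {O : Type} [CommRing O] [IsDomain O] [IsDiscreteValuationRing O]
  [IsAdicComplete (maximalIdeal O) O] [CharZero O] [Finite (ResidueField O)]
variable (𝔪 : Ideal (Sy.𝕋 O)) [𝔪.IsMaximal]
variable (H : PrimeData (N * q) p K r e N'') {ϖ : O} {s0 : Sy.ι₁} (h : Plug.Hyp Sy 𝔪 p ϖ s0)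
variable {M₁ : Type} [AddCommGroup M₁] [Module O M₁] [Module.Finite O M₁] [Module.Free O M₁]
  {TQ : Type} [CommRing TQ] [IsLocalRing TQ] [Algebra O TQ]

include hqN h in
/-- **`kill₁`, tower layer**: `θ_k = Theta (Δs p e) H.psi k` (the stage of the B3 tower at level
`N q` WITHOUT the character at the framed prime `q`), `E : M₁ ≃ Hom(Γ_H(θ_k), O)_𝔪`, vanishing of
the primary part at level `N` (`hbase`), (BND) at `θ_k`; `a₁ (τ_ℓ)` corresponds under `E` to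
`⟨d⟩ T_ℓ` for SOME half-diamond `d` (`χ_{θ_k}(d)² θ_k(ℓ) = 1`). -/
theorem he_of_hgen (k : ℕ) (hk : k ≤ K) (hrk : ∀ i : Fin k, r i ∣ N)
    (E : M₁ ≃ₗ[O] ↥(Base.locSub (actH Sy O (Theta (Δs p e) H.psi k)) 𝔪))
    (hbase : ∀ y : Additive (Gamma0 N) →+ O,
      IsLoc (HeckeActH.act0 (restrict Sy hrN) O) 𝔪 y → y = 0)
    (hbnd : ∀ y : Additive (GammaH (Theta (Δs p e) H.psi k)) →+ O,
      IsLoc (actH Sy O (Theta (Δs p e) H.psi k)) 𝔪 y →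
        y ∈ parabolicHoms O (GammaH (Theta (Δs p e) H.psi k)) O)
    (S : Finset ℕ) (hSN : ∀ ℓ : ℕ, ℓ.Prime → ℓ ∣ N * q → ℓ ∈ S) (hpS : p ∈ S) (hqp : q ≠ p)
    (ρ : GaloisRepAdic TQ) (a₁ : TQ →ₐ[O] Module.End O M₁)
    (hred : ∀ t : TQ, a₁ t * a₁ t = 0 → a₁ t = 0)
    (τ : ℕ → TQ)
    (hgen : ∀ (ℓ : ℕ) (hℓ : ℓ.Prime) (_ : ℓ ∉ (↑S : Set ℕ)) (hℓN : ¬ ℓ ∣ N * q),
      haveI : Fact ℓ.Prime := ⟨hℓ⟩
      ∃ d : Gamma0 (N * q),
        (∀ u : (ZMod (N * q))ˣ,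
          (∀ i : Fin k, (((u : ZMod (N * q))).cast : ZMod (r i)) = ((ℓ : ℕ) : ZMod (r i))) →
            chi (Theta (Δs p e) H.psi k) d ^ 2 * Theta (Δs p e) H.psi k u = 1) ∧
        ∀ y : M₁,
          ((E (a₁ (τ ℓ) y) : ↥(Base.locSub (actH Sy O (Theta (Δs p e) H.psi k)) 𝔪)) :
              Additive (GammaH (Theta (Δs p e) H.psi k)) →+ O)
            = diaH (Theta (Δs p e) H.psi k) O d
                (TH (Theta (Δs p e) H.psi k) O hℓN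
                  ((E y : ↥(Base.locSub (actH Sy O (Theta (Δs p e) H.psi k)) 𝔪)) :
                    Additive (GammaH (Theta (Δs p e) H.psi k)) →+ O)))
    (hspan : ∀ t : TQ, a₁ t ∈ Algebra.adjoin O
      {f : Module.End O M₁ | ∃ ℓ : ℕ, ℓ.Prime ∧ ℓ ∉ (↑S : Set ℕ) ∧ f = a₁ (τ ℓ)})
    (hρ : ∀ ℓ : ℕ, ℓ.Prime → ℓ ∉ (↑S : Set ℕ) →
      ∀ A : ValuationSubring Qb, A.LiesOverPrime ℓ → ∀ σ : GQ, A.IsFrobeniusAt σ ℓ →
        LinearMap.charpoly (ρ.ρ σ) = X ^ 2 - C (τ ℓ) * X + C ((ℓ : TQ))) :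
    ∀ A : ValuationSubring Qb, A.LiesOverPrime q → ∀ σ : GQ, A.IsFrobeniusAt σ q →
      a₁ (ρ.trace σ ^ 2 - (1 + (q : TQ)) ^ 2) = 0 := by
  classical
  have hp : p.Prime := hpF.out
  have hq : q.Prime := hqF.out
  have hlt : ∀ i : Fin k, (i : ℕ) < K := fun i => lt_of_lt_of_le i.2 hk
  have hrprime : ∀ i : Fin k, (r i).Prime := fun i => H.prime i (hlt i)
  have hNNq : N ∣ N * q := Dvd.intro _ rfl
  -- the level of the forms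
  obtain ⟨N₁, hN₁⟩ : ∃ N₁ : ℕ, N₁ = N * q * ∏ i : Fin k, r i := ⟨_, rfl⟩
  haveI : NeZero N₁ := ⟨by
    rw [hN₁]
    exact mul_ne_zero (NeZero.ne (N * q))
      (Finset.prod_ne_zero_iff.2 fun i _ => (hrprime i).ne_zero)⟩
  have hdvd₁ : N * q ∣ N₁ := ⟨_, hN₁⟩
  have hprimeN₁ : ∀ ℓ : ℕ, ℓ.Prime → ℓ ∣ N₁ → ℓ ∣ N * q := by
    intro ℓ hℓ hd
    rw [hN₁] at hd
    rcases (Nat.Prime.dvd_mul hℓ).1 hd with h1 | h1
    · exact h1
    · obtain ⟨i, -, hi⟩ := (Prime.dvd_finsetProd_iff hℓ.prime _).1 h1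
      have h2 : ℓ = r i := (Nat.prime_dvd_prime_iff_eq hℓ (hrprime i)).1 hi
      rw [h2]
      exact (hrk i).trans hNNq
  have hNS : ∀ ℓ : ℕ, ℓ.Prime → ℓ ∣ N₁ → ℓ ∈ S := fun ℓ hℓ hd => hSN ℓ hℓ (hprimeN₁ ℓ hℓ hd)
  have hS'S : S.erase q ⊆ S := Finset.erase_subset _ _
  have hqS' : q ∉ (↑(S.erase q) : Set ℕ) := by
    rw [Finset.mem_coe]
    exact Finset.notMem_erase q S
  have hrS' : ∀ i : Fin k, r i ∈ (↑(S.erase q) : Set ℕ) := by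
    intro i
    rw [Finset.mem_coe, Finset.mem_erase]
    refine ⟨?_, hSN _ (hrprime i) ((hrk i).trans hNNq)⟩
    intro h'
    exact hqN (h' ▸ hrk i)
  have hqN₁ : q ∣ N₁ := (Dvd.intro_left N rfl).trans hdvd₁
  have hq2 : ¬ q ^ 2 ∣ N₁ := by
    intro h2
    have e1 : N₁ = q * (N * ∏ i : Fin k, r i) := by rw [hN₁]; ring
    rw [e1, pow_two] at h2
    have h3 : q ∣ N * ∏ i : Fin k, r i := Nat.dvd_of_mul_dvd_mul_left hq.pos h2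
    rcases (Nat.Prime.dvd_mul hq).1 h3 with h4 | h4
    · exact hqN h4
    · obtain ⟨i, -, hi⟩ := (Prime.dvd_finsetProd_iff hq.prime _).1 h4
      have h5 : q = r i := (Nat.prime_dvd_prime_iff_eq hq (hrprime i)).1 hi
      exact hqN (h5 ▸ hrk i)
  have hlamO : (p : O) ∈ maximalIdeal O := by
    rw [h.hmax]
    exact h.hpϖ
  -- the half diamonds and the twisted action
  obtain ⟨dℓ, hdℓ⟩ := exists_dlU_primeData H hp h.hp2 k hk (↑(S.erase q) : Set ℕ) hrS'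
  obtain ⟨tw₁, hT, hU, -, -, -⟩ := ThetaQ.exists_tw₁_of_base Sy hrN hqN 𝔪 H h k hk hrk hbase hbnd
    hN₁ (↑(S.erase q) : Set ℕ) hrS' hqS' dℓ hdℓ
  have hodd := odd_card_pi hp h.hp2 e k
  haveI : Finite (∀ i : Fin k, Multiplicative (ZMod (p ^ e i))) := by
    haveI : ∀ i : Fin k, Finite (Multiplicative (ZMod (p ^ e i))) := fun i => by
      haveI : NeZero (p ^ e i) := ⟨pow_ne_zero _ hp.ne_zero⟩
      infer_instance
    infer_instance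
  refine trace_sq_kill_of_equiv Sy (Theta (Δs p e) H.psi k) 𝔪 E p hlamO ρ a₁ hred (S.erase q) S
    hS'S hpS hNS q hq hqp hqN₁ hq2 hqS' (fun ℓ _ hn hd => hn (hd.trans hdvd₁)) dℓ tw₁
    (fun hℓ hℓN₁ hℓS hℓN y => hT hℓ hℓN₁ hℓS hℓN y) (hU hqN₁) τ ?_ ?_
    (fun ℓ hℓ _ hℓS => hρ ℓ hℓ hℓS)
  · intro ℓ hℓ hℓN₁ hℓS hℓN y
    obtain ⟨d, hd, hy⟩ := hgen ℓ hℓ hℓS hℓN
    rw [hy y]
    refine diaH_congr _ _ _ ?_ _
    -- a unit congruent to `ℓ`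
    have hcop : Nat.Coprime ℓ (N * q) := (Nat.Prime.coprime_iff_not_dvd hℓ).2 hℓN
    have hu : ∀ i : Fin k, (((ZMod.unitOfCoprime ℓ hcop : (ZMod (N * q))ˣ) :
        ZMod (N * q)).cast : ZMod (r i)) = ((ℓ : ℕ) : ZMod (r i)) := by
      intro i
      rw [ZMod.coe_unitOfCoprime, ZMod.cast_natCast ((hrk i).trans hNNq)]
    have h1 := hd _ hu
    have h2 := hdℓ ⟨⟨ℓ, hℓ⟩, fun h' => hℓS (Finset.coe_subset.2 hS'S h')⟩ _ hu
    apply eq_of_sq_eq_of_odd hodd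
    exact mul_right_cancel (h1.trans h2.symm)
  · intro t
    refine Algebra.adjoin_mono ?_ (hspan t)
    rintro f ⟨ℓ, hℓ, hℓS, rfl⟩
    exact ⟨ℓ, hℓ, fun hd => hℓS (hNS ℓ hℓ hd), hℓS, rfl⟩

end TowerLayer

/-! ### the half-diamond condition, from the big stage to the stage `k` -/

section Half

open GB.B3.L1Iso

variable {N₀ p K : ℕ} [NeZero N₀] {r e N'' : ℕ → ℕ} (H : PrimeData N₀ p K r e N'')

include H in
/-- `θ_k u` depends on the residues of `u` modulo the first `k` primes only -/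
theorem Theta_eq_of_cast (k : ℕ) (hk : k ≤ K) (u u' : (ZMod N₀)ˣ)
    (huu' : ∀ i : Fin k, (((u : ZMod N₀)).cast : ZMod (r i)) = (((u' : ZMod N₀)).cast : ZMod (r i))) :
    Theta (Δs p e) H.psi k u = Theta (Δs p e) H.psi k u' := by
  funext i
  have hiK : (i : ℕ) < K := lt_of_lt_of_le i.2 hk
  rw [Theta_apply, Theta_apply, H.psi_of_lt i hiK]
  haveI : Fact (r i).Prime := ⟨H.prime i hiK⟩
  rw [psiR_apply, psiR_apply]
  congr 1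
  apply Units.ext
  rw [ZMod.unitsMap_val, ZMod.unitsMap_val]
  exact huu' i

include H in
/-- helper44's half-diamond condition at the stage `j` gives the B7 form at any stage `k ≤ j` -/
theorem half_of_big (j k : ℕ) (hkj : k ≤ j) (hk : k ≤ K) {ℓ : ℕ} (hcop : Nat.Coprime ℓ N₀)
    (d : Gamma0 N₀)
    (hd : ∀ u : (ZMod N₀)ˣ, (u : ZMod N₀) = ((ℓ : ℕ) : ZMod N₀) →
      chi (Theta (Δs p e) H.psi j) d ^ 2 * Theta (Δs p e) H.psi j u = 1)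
    (u : (ZMod N₀)ˣ)
    (hu : ∀ i : Fin k, (((u : ZMod N₀)).cast : ZMod (r i)) = ((ℓ : ℕ) : ZMod (r i))) :
    chi (Theta (Δs p e) H.psi k) d ^ 2 * Theta (Δs p e) H.psi k u = 1 := by
  have h1 := hd (ZMod.unitOfCoprime ℓ hcop) (ZMod.coe_unitOfCoprime ℓ hcop)
  have h2 := congrArg (dropHom (Δs p e) j k hkj) h1
  rw [map_mul, map_pow, map_one] at h2
  have h3 : Theta (Δs p e) H.psi k u = Theta (Δs p e) H.psi k (ZMod.unitOfCoprime ℓ hcop) := by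
    refine Theta_eq_of_cast H k hk _ _ fun i => ?_
    rw [hu i, ZMod.coe_unitOfCoprime,
      ZMod.cast_natCast (H.dvd i (lt_of_lt_of_le i.2 hk))]
  rw [h3]
  exact h2

end Half

/-! ### `kill₁` on `M¹_Q = tw.L1.M` -/

section Final

open GB.B3.L1Iso GB.B3.Plug GB.B3.ChiLevelMulti
  GB.B3.Final GB.B3.TWLevel
  GB.B3.LocTransport S16_helper49 ModularCurve.Period
  GM.EisClass

variable {N q p K : ℕ} [NeZero N] [NeZero (N * q)] [hqF : Fact q.Prime] [hpF : Fact p.Prime]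
  {r e N'' : ℕ → ℕ}
variable (Sy : Symbols (N * q)) (hrN : ∀ j, Sy.r j ∣ N) (hqN : ¬ q ∣ N)
variable {O : Type} [CommRing O] [IsDomain O] [IsDiscreteValuationRing O]
  [IsAdicComplete (maximalIdeal O) O] [CharZero O] [Finite (ResidueField O)]
variable (𝔪 : Ideal (Sy.𝕋 O)) [𝔪.IsMaximal]
variable (H : PrimeData (N * q) p K r e N'') {ϖ : O} {s0 : Sy.ι₁} (h : Plug.Hyp Sy 𝔪 p ϖ s0)
variable (k : ℕ) (c : Fin 1 → O) (hc : ∀ v : Fin 1, c v ^ p ^ e (1 + k - 1 - v) = 1)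
  (hc1 : ∀ v, (1 : O) - c v ∈ Ideal.span {ϖ})
variable {TQ : Type} [CommRing TQ] [IsLocalRing TQ] [Algebra O TQ]

include hqN in
/-- **`kill₁` on `M¹_Q`** (`= (Plug.tw Sy 𝔪 H h 1 k c hc hc1).L1.M`, the coinvariants of the diamond
at the framed prime `q = r k` on the big level): if `a₁ (τ_ℓ)` is induced by an operator of the big
level which is `⟨d⟩ T_ℓ` on `Hom(Γ_H(θ_{1+k}), O)` for some half-diamond `d`, and `a₁ (T_Q)` is
generated by the `a₁ (τ_ℓ)`, then `a₁ ((tr ρ_Q σ)² − (1+q)²) = 0` for every Frobenius `σ` at `q`. -/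
theorem he_of_big (hk : k ≤ K) (hrk : ∀ i : Fin k, r i ∣ N)
    (hbase : ∀ y : Additive (Gamma0 N) →+ O,
      IsLoc (HeckeActH.act0 (restrict Sy hrN) O) 𝔪 y → y = 0)
    (hbnd : ∀ y : Additive (GammaH (Theta (Δs p e) H.psi k)) →+ O,
      IsLoc (actH Sy O (Theta (Δs p e) H.psi k)) 𝔪 y →
        y ∈ parabolicHoms O (GammaH (Theta (Δs p e) H.psi k)) O)
    (S : Finset ℕ) (hSN : ∀ ℓ : ℕ, ℓ.Prime → ℓ ∣ N * q → ℓ ∈ S) (hpS : p ∈ S) (hqp : q ≠ p)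
    (ρ : GaloisRepAdic TQ)
    (a₁ : TQ →ₐ[O] Module.End O (tw Sy 𝔪 H h 1 k c hc hc1).L1.M)
    (hred : ∀ t : TQ, a₁ t * a₁ t = 0 → a₁ t = 0)
    (τ : ℕ → TQ)
    (hgen : ∀ (ℓ : ℕ) (hℓ : ℓ.Prime) (_ : ℓ ∉ (↑S : Set ℕ)) (hℓN : ¬ ℓ ∣ N * q),
      haveI : Fact ℓ.Prime := ⟨hℓ⟩
      ∃ d : Gamma0 (N * q),
        (∀ u : (ZMod (N * q))ˣ,
          (∀ i : Fin k, (((u : ZMod (N * q))).cast : ZMod (r i)) = ((ℓ : ℕ) : ZMod (r i))) →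
            chi (Theta (Δs p e) H.psi k) d ^ 2 * Theta (Δs p e) H.psi k u = 1) ∧
        ∀ x : (bigLevel Sy 𝔪 H h (1 + k)).M, ∃ x' : (bigLevel Sy 𝔪 H h (1 + k)).M,
          a₁ (τ ℓ) (fmk (frD (bigLevel Sy 𝔪 H h (1 + k))) (fun _ => (1 : O)) x)
            = fmk (frD (bigLevel Sy 𝔪 H h (1 + k))) (fun _ => (1 : O)) x' ∧
          (bigReal Sy 𝔪 H h (1 + k)).ι x'
            = diaH (Theta (Δs p e) H.psi (1 + k)) O d
                (TH (Theta (Δs p e) H.psi (1 + k)) O hℓN ((bigReal Sy 𝔪 H h (1 + k)).ι x)))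
    (hspan : ∀ t : TQ, a₁ t ∈ Algebra.adjoin O
      {f : Module.End O (tw Sy 𝔪 H h 1 k c hc hc1).L1.M |
        ∃ ℓ : ℕ, ℓ.Prime ∧ ℓ ∉ (↑S : Set ℕ) ∧ f = a₁ (τ ℓ)})
    (hρ : ∀ ℓ : ℕ, ℓ.Prime → ℓ ∉ (↑S : Set ℕ) →
      ∀ A : ValuationSubring Qb, A.LiesOverPrime ℓ → ∀ σ : GQ, A.IsFrobeniusAt σ ℓ →
        LinearMap.charpoly (ρ.ρ σ) = X ^ 2 - C (τ ℓ) * X + C ((ℓ : TQ))) :
    ∀ A : ValuationSubring Qb, A.LiesOverPrime q → ∀ σ : GQ, A.IsFrobeniusAt σ q →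
      a₁ (ρ.trace σ ^ 2 - (1 + (q : TQ)) ^ 2) = 0 := by
  classical
  haveI : Fintype (dropHom (Δs p e) (1 + k) k (Nat.le_add_left k 1)).ker := Fintype.ofFinite _
  have hex := exists_rep H k
  haveI : Module.Free O (tw Sy 𝔪 H h 1 k c hc hc1).L1.M :=
    Module.Free.of_basis (tw Sy 𝔪 H h 1 k c hc hc1).L1.basis
  haveI : Module.Finite O (tw Sy 𝔪 H h 1 k c hc hc1).L1.M :=
    Module.Finite.of_basis (tw Sy 𝔪 H h 1 k c hc hc1).L1.basis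
  refine he_of_hgen Sy hrN hqN 𝔪 H h k hk hrk
    (L1Equiv Sy 𝔪 H h k c hc hc1 hex.choose hex.choose_spec) hbase hbnd S hSN hpS hqp ρ a₁ hred τ
    ?_ hspan hρ
  intro ℓ hℓ hℓS hℓN
  haveI : Fact ℓ.Prime := ⟨hℓ⟩
  obtain ⟨d, hd, hx⟩ := hgen ℓ hℓ hℓS hℓN
  refine ⟨d, hd, fun y => ?_⟩
  choose fB hfB1 hfB2 using hx
  exact L1Equiv_transport Sy 𝔪 H h k c hc hc1 hex.choose hex.choose_spec
    (fun y => a₁ (τ ℓ) y) fB
    (fun ψ => diaH (Theta (Δs p e) H.psi (1 + k)) O d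
      (TH (Theta (Δs p e) H.psi (1 + k)) O hℓN ψ))
    (fun ψ => diaH (Theta (Δs p e) H.psi k) O d (TH (Theta (Δs p e) H.psi k) O hℓN ψ))
    hfB1 hfB2
    (fun ψ => by
      rw [GamH.coresHH_diaH, GamH.coresHH_TH]
      rfl) y

end Final

end GB.B7.Kill1Asm

end

end Fermat.Agent.GE8.P3B
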