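/-
GATE-B / S43, node GB-B7-TKILL (helper52): **`kill₁` in the ProviderFlat shapes.**

* `trace_matT_eq` : `(ThetaT.matT ψ σ).trace = ρ_Q.trace σ` for `DQ.ρ ⊗_ψ T ≃ ρ_Q` — the Frobenius
  matrix `F v = matT ψ (φ v)` of helper4's `ThetaT.package` / helper59's G5 has the trace of `ρ_Q`;
* `he_matT` : `Kill1Asm.he_of_big` with the conclusion in the shape
  `a₁ ((matT ψ σ).trace ^ 2 - (1 + q) ^ 2) = 0` (= the binder `he` of helper51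
  `LevelMulti.nonempty_TWInput_multi` at `F (Fin.last s) = matT ψ (φ (Fin.last s))`, `ℓ last = q`);
* `actL_mem_adjoin` : the binder `hspan` for helper74's `a₁ = TQFields.actL` on
  `T_Q = ImageRing.TQ O θ (prodTw tw₁ twχ)`, `A = heckeAlgebra N' 2 S` with all primes of `N'` in `S`:
  `a₁ (T_Q)` is generated over `O` by the `tw₁ (T_ℓ)`;
* `tauOf`, `he_TQ` : everything at `T_Q`, `τ_ℓ = chi (T_ℓ)`, hypotheses on `tw₁` in the form exported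
  by helper74's `TwRestrictPlug.exists_twP` / `TQCompat.quotTw_fmk`.
-/
import Mathlib
import Fermat.Agent.GE8.P3B.GB.B7.Kill1Asm
import Fermat.Agent.GB.B9.ThetaT
import Fermat.Agent.GB.B4.Datum.TQFieldsHecke
import Fermat.Agent.GE8.P3B.StepGen
import Fermat.Agent.GE8.P3B.Ok3W

/- TWIN (helper6 B4 generator; conventions of helper24 / helper86) of `Fermat.Agent.GB.B7.Kill1TQ` with `p ≠ 3` relaxed to `Ok3A Sy 𝔪 p` / `Ok3W p W` (RISK-5 fix (B), step B4); everything below lives in the wrapper namespace `Fermat.Agent.GE8.P3B`. -/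
set_option linter.dupNamespace false
open Fermat Fermat.Agent Fermat.Agent.GB Fermat.Agent.GB.B3 Fermat.Agent.GB.B3.ChiLevelMulti Fermat.Agent.GB.B3.EisGamma0 Fermat.Agent.GB.B3.GamH Fermat.Agent.GB.B3.HeckeAct Fermat.Agent.GB.B3.HeckeActH Fermat.Agent.GB.B3.RealLevel Fermat.Agent.GB.B3.TWChars Fermat.Agent.GB.B3.TWLevel Fermat.Agent.GB.B4 Fermat.Agent.GB.B4.Datum Fermat.Agent.GB.B4.Datum.Carrier Fermat.Agent.GB.B4.Datum.ImageRing Fermat.Agent.GB.B4.Datum.TQFields Fermat.Agent.GB.B4.Datum.TQFieldsHecke Fermat.Agent.GB.B7 Fermat.Agent.GB.B9 Fermat.Agent.GB.B9.ThetaT Fermat.Agent.GJ Fermat.Agent.GJ.J2 Fermat.Agent.GJ.J2.Lat Fermat.Agent.GM Fermat.Agent.GM.B Fermat.Agent.GM.EisClass Fermat.Agent.S16_helper49 Fermat.Agent.S53_helper35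

namespace Fermat.Agent.GE8.P3B

set_option autoImplicit false
set_option linter.unusedSectionVars false
set_option linter.style.haveILetI false

noncomputable section

open scoped MatrixGroups
open CongruenceSubgroup Polynomial IsLocalRing CuspForm
open GM.B
open GB.B3 GB.B3.EisGamma0 GB.B3.GamH
open GB.B3.RealLevel GB.B3.HeckeActH GB.B3.HeckeAct
open GB.B3.TWChars GB.B3.Tower GB.B3.FinalTW
open GJ.J2.Lat

namespace GB.B7.Kill1TQ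

/-- `G_ℚ`. -/
local notation "GQ" => AlgebraicClosure ℚ ≃ₐ[ℚ] AlgebraicClosure ℚ
/-- `ℚ̄`. -/
local notation "Qb" => AlgebraicClosure ℚ

/-! ### the trace of the Frobenius matrix -/

section MatT

open GB.B9.ThetaT S53_helper35

variable {𝒪 : Type} [CommRing 𝒪] [IsDomain 𝒪] [IsDiscreteValuationRing 𝒪]
  [IsAdicComplete (maximalIdeal 𝒪) 𝒪]
  {ρbar : ResidualGaloisRep (ResidueField 𝒪)}
  {𝒟 : ∀ ⦃A : Type⦄ [CommRing A] [IsLocalRing A] [Algebra 𝒪 A], GaloisRepAdic A → Prop}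
  {DQ : GaloisRep.DeformationRingData 𝒪 ρbar 𝒟}
  {T : Type} [CommRing T] [IsLocalRing T] [Algebra 𝒪 T]
  (ψ : DQ.R →ₐ[𝒪] T)

/-- the matrices `matT ψ σ` of `ρ_Q = DQ.ρ ⊗_ψ T` have the traces of any equivalent `ρ_Q` -/
theorem trace_matT_eq (hψ : IsLocalHom (ψ : DQ.R →+* T)) (ρQ : GaloisRepAdic T)
    (he : (DQ.ρ.baseChangeAlong (ψ : DQ.R →+* T) hψ).IsEquiv ρQ) (σ : GQ) :
    (matT ψ σ).trace = ρQ.trace σ := by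
  have h1 : (matT ψ σ).charpoly = LinearMap.charpoly (ρQ.ρ σ) := by
    rw [charpoly_matT ψ hψ, charpoly_eq_of_isEquiv he]
  have h2 := Matrix.charpoly_fin_two (matT ψ σ)
  have h3 := GK.Tate.charpoly_eq_of_finrank_two ρQ.finrank_eq (ρQ.ρ σ)
  rw [h1, h3] at h2
  have h4 := congrArg (fun f => Polynomial.coeff f 1) h2
  simp only [Polynomial.coeff_add, Polynomial.coeff_sub, Polynomial.coeff_X_pow,
    Polynomial.coeff_C_mul, Polynomial.coeff_X_one, Polynomial.coeff_C] at h4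
  norm_num at h4
  exact h4.symm

end MatT

/-! ### `he` in the shape of `LevelMulti.nonempty_TWInput_multi` -/

section HeMatT

open GB.B3.L1Iso GB.B3.Plug GB.B3.ChiLevelMulti
  GB.B3.Final GB.B3.TWLevel
  GB.B3.LocTransport S16_helper49 ModularCurve.Period
  GM.EisClass GB.B9.ThetaT

variable {N q p K : ℕ} [NeZero N] [NeZero (N * q)] [hqF : Fact q.Prime] [hpF : Fact p.Prime]
  {r e N'' : ℕ → ℕ}
variable (Sy : Symbols (N * q)) (hrN : ∀ j, Sy.r j ∣ N) (hqN : ¬ q ∣ N)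
variable {O : Type} [CommRing O] [IsDomain O] [IsDiscreteValuationRing O]
  [IsAdicComplete (maximalIdeal O) O] [CharZero O] [Finite (ResidueField O)]
variable (𝔪 : Ideal (Sy.𝕋 O)) [𝔪.IsMaximal]
variable (H : PrimeData (N * q) p K r e N'') {ϖ : O} {s0 : Sy.ι₁} (h : Plug.Hyp Sy 𝔪 p ϖ s0)
variable (k : ℕ) (c : Fin 1 → O) (hc : ∀ v : Fin 1, c v ^ p ^ e (1 + k - 1 - v) = 1)
  (hc1 : ∀ v, (1 : O) - c v ∈ Ideal.span {ϖ})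
variable {TQ : Type} [CommRing TQ] [IsLocalRing TQ] [Algebra O TQ]
  {ρbar : ResidualGaloisRep (ResidueField O)}
  {𝒟 : ∀ ⦃A : Type⦄ [CommRing A] [IsLocalRing A] [Algebra O A], GaloisRepAdic A → Prop}
  {DQ : GaloisRep.DeformationRingData O ρbar 𝒟}

include hqN in
/-- **the binder `he` of `LevelMulti.nonempty_TWInput_multi`** for `F = matT ψ σ`, `σ` a Frobenius
at `q` (e.g. the `φ` of `KummerTests q p φ τ₀` at `padicPlace q`). -/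
theorem he_matT (hk : k ≤ K) (hrk : ∀ i : Fin k, r i ∣ N)
    (hbase : ∀ y : Additive (Gamma0 N) →+ O,
      IsLoc (HeckeActH.act0 (restrict Sy hrN) O) 𝔪 y → y = 0)
    (hbnd : ∀ y : Additive (GammaH (Theta (Δs p e) H.psi k)) →+ O,
      IsLoc (actH Sy O (Theta (Δs p e) H.psi k)) 𝔪 y →
        y ∈ parabolicHoms O (GammaH (Theta (Δs p e) H.psi k)) O)
    (S : Finset ℕ) (hSN : ∀ ℓ : ℕ, ℓ.Prime → ℓ ∣ N * q → ℓ ∈ S) (hpS : p ∈ S) (hqp : q ≠ p)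
    (ψ : DQ.R →ₐ[O] TQ) (hψ : IsLocalHom (ψ : DQ.R →+* TQ)) (ρQ : GaloisRepAdic TQ)
    (hequiv : (DQ.ρ.baseChangeAlong (ψ : DQ.R →+* TQ) hψ).IsEquiv ρQ)
    (a₁ : TQ →ₐ[O] Module.End O (tw Sy 𝔪 H h 1 k c hc hc1).L1.M)
    (hred : ∀ t : TQ, a₁ t * a₁ t = 0 → a₁ t = 0)
    (τ : ℕ → TQ)
    (hgen : ∀ (ℓ : ℕ) (hℓ : ℓ.Prime) (_ : ℓ ∉ (↑S : Set ℕ)) (hℓN : ¬ ℓ ∣ N * q),
      haveI : Fact ℓ.Prime := ⟨hℓ⟩
      ∃ d : Gamma0 (N * q),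
        (∀ u : (ZMod (N * q))ˣ,
          (∀ i : Fin k, (((u : ZMod (N * q))).cast : ZMod (r i)) = ((ℓ : ℕ) : ZMod (r i))) →
            chi (Theta (Δs p e) H.psi k) d ^ 2 * Theta (Δs p e) H.psi k u = 1) ∧
        ∀ x : (bigLevel Sy 𝔪 H h (1 + k)).M, ∃ x' : (bigLevel Sy 𝔪 H h (1 + k)).M,
          a₁ (τ ℓ) (fmk (frD (bigLevel Sy 𝔪 H h (1 + k))) (fun _ => (1 : O)) x)
            = fmk (frD (bigLevel Sy 𝔪 H h (1 + k))) (fun _ => (1 : O)) x' ∧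
          (bigReal Sy 𝔪 H h (1 + k)).ι x'
            = diaH (Theta (Δs p e) H.psi (1 + k)) O d
                (TH (Theta (Δs p e) H.psi (1 + k)) O hℓN ((bigReal Sy 𝔪 H h (1 + k)).ι x)))
    (hspan : ∀ t : TQ, a₁ t ∈ Algebra.adjoin O
      {f : Module.End O (tw Sy 𝔪 H h 1 k c hc hc1).L1.M |
        ∃ ℓ : ℕ, ℓ.Prime ∧ ℓ ∉ (↑S : Set ℕ) ∧ f = a₁ (τ ℓ)})
    (hρ : ∀ ℓ : ℕ, ℓ.Prime → ℓ ∉ (↑S : Set ℕ) →
      ∀ A : ValuationSubring Qb, A.LiesOverPrime ℓ → ∀ σ : GQ, A.IsFrobeniusAt σ ℓ →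
        LinearMap.charpoly (ρQ.ρ σ) = X ^ 2 - C (τ ℓ) * X + C ((ℓ : TQ)))
    (A : ValuationSubring Qb) (hA : A.LiesOverPrime q) (σ : GQ) (hσ : A.IsFrobeniusAt σ q) :
    a₁ ((matT ψ σ).trace ^ 2 - (1 + (q : TQ)) ^ 2) = 0 := by
  rw [trace_matT_eq ψ hψ ρQ hequiv σ]
  exact GB.B7.Kill1Asm.he_of_big Sy hrN hqN 𝔪 H h k c hc hc1 hk hrk hbase hbnd S hSN
    hpS hqp ρQ a₁ hred τ hgen hspan hρ A hA σ hσ

end HeMatT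

/-! ### `hspan` for `a₁ = TQFields.actL` -/

section Span

open GB.B4.Datum.ImageRing GB.B4.Datum.TQFields
  GB.B4.Datum.TQFieldsHecke GB.B4.Datum.Carrier

variable {𝒪 : Type} [CommRing 𝒪] [IsLocalRing 𝒪] {N' : ℕ} [NeZero N'] {S : Set ℕ}
  {M₁ M₂ : Type} [AddCommGroup M₁] [Module 𝒪 M₁] [AddCommGroup M₂] [Module 𝒪 M₂]

/-- every `tw₁ t` is a polynomial in the `tw₁ (T_ℓ)` when all primes of the level are in `S` -/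
theorem tw_mem_adjoin (hSN : ∀ q : ℕ, q.Prime → q ∣ N' → q ∈ S)
    (tw₁ : ↥(heckeAlgebra N' 2 S) →+* Module.End 𝒪 M₁) (t : ↥(heckeAlgebra N' 2 S)) :
    tw₁ t ∈ Algebra.adjoin 𝒪
      {f : Module.End 𝒪 M₁ | ∃ (ℓ : ℕ) (hℓ : ℓ.Prime) (hℓN : ¬ ℓ ∣ N') (hℓS : ℓ ∉ S),
        f = tw₁ (heckeAlgebra.T hℓ hℓN hℓS)} := by
  have hmem : t ∈ Algebra.adjoin ℤ (gens N' 2 S) := by
    rw [adjoin_gens]
    exact Algebra.mem_top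
  refine Algebra.adjoin_induction (p := fun t _ => tw₁ t ∈ Algebra.adjoin 𝒪
      {f : Module.End 𝒪 M₁ | ∃ (ℓ : ℕ) (hℓ : ℓ.Prime) (hℓN : ¬ ℓ ∣ N') (hℓS : ℓ ∉ S),
        f = tw₁ (heckeAlgebra.T hℓ hℓN hℓS)}) ?_ ?_ ?_ ?_ hmem
  · intro g hg
    rcases gens_cases hg with ⟨ℓ, hℓ, hℓN, hℓS, rfl⟩ | ⟨q, hq, hqN, hqS, rfl⟩
    · exact Algebra.subset_adjoin ⟨ℓ, hℓ, hℓN, hℓS, rfl⟩
    · exact absurd (hSN q hq hqN) hqS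
  · intro n
    rw [eq_intCast, map_intCast]
    exact intCast_mem _ n
  · intro x y _ _ hx hy
    rw [map_add]
    exact add_mem hx hy
  · intro x y _ _ hx hy
    rw [map_mul]
    exact mul_mem hx hy

variable (θ : ↥(heckeAlgebra N' 2 S) →+* ResidueField 𝒪)

/-- **`hspan` for `TQFields.actL`** -/
theorem actL_mem_adjoin (hSN : ∀ q : ℕ, q.Prime → q ∣ N' → q ∈ S)
    (tw₁ : ↥(heckeAlgebra N' 2 S) →+* Module.End 𝒪 M₁)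
    (tw₂ : ↥(heckeAlgebra N' 2 S) →+* Module.End 𝒪 M₂)
    (t : TQ 𝒪 θ (prodTw 𝒪 tw₁ tw₂)) :
    actL 𝒪 θ tw₁ tw₂ t ∈ Algebra.adjoin 𝒪
      {f : Module.End 𝒪 M₁ | ∃ (ℓ : ℕ) (hℓ : ℓ.Prime) (hℓN : ¬ ℓ ∣ N') (hℓS : ℓ ∉ S),
        f = tw₁ (heckeAlgebra.T hℓ hℓN hℓS)} := by
  obtain ⟨a, rfl⟩ := mkQ_surjective 𝒪 θ (prodTw 𝒪 tw₁ tw₂) t
  rw [actL_mkQ]
  induction a using TensorProduct.induction_on with
  | zero =>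
    rw [map_zero]
    exact zero_mem _
  | tmul x t =>
    rw [twO_tmul]
    exact Subalgebra.smul_mem _ (tw_mem_adjoin hSN tw₁ t) x
  | add a b ha hb =>
    rw [map_add]
    exact add_mem ha hb

/-- **`hspan` for ANY `O`-algebra `T` generated by a Hecke hom `χ`** (`hgen` of `TQGal`) acting
through `a₁` with `a₁ ∘ χ = tw₁` -/
theorem hspan_of_adjoin {T : Type} [CommRing T] [Algebra 𝒪 T]
    (hSN : ∀ q : ℕ, q.Prime → q ∣ N' → q ∈ S)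
    (χ : ↥(heckeAlgebra N' 2 S) →+* T) (hχ : Algebra.adjoin 𝒪 (Set.range χ) = ⊤)
    (tw₁ : ↥(heckeAlgebra N' 2 S) →+* Module.End 𝒪 M₁) (a₁ : T →ₐ[𝒪] Module.End 𝒪 M₁)
    (ha : ∀ t, a₁ (χ t) = tw₁ t) (t : T) :
    a₁ t ∈ Algebra.adjoin 𝒪
      {f : Module.End 𝒪 M₁ | ∃ (ℓ : ℕ) (hℓ : ℓ.Prime) (hℓN : ¬ ℓ ∣ N') (hℓS : ℓ ∉ S),
        f = a₁ (χ (heckeAlgebra.T hℓ hℓN hℓS))} := by
  have hset : {f : Module.End 𝒪 M₁ | ∃ (ℓ : ℕ) (hℓ : ℓ.Prime) (hℓN : ¬ ℓ ∣ N') (hℓS : ℓ ∉ S),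
        f = a₁ (χ (heckeAlgebra.T hℓ hℓN hℓS))}
      = {f : Module.End 𝒪 M₁ | ∃ (ℓ : ℕ) (hℓ : ℓ.Prime) (hℓN : ¬ ℓ ∣ N') (hℓS : ℓ ∉ S),
        f = tw₁ (heckeAlgebra.T hℓ hℓN hℓS)} := by
    ext f
    constructor
    · rintro ⟨ℓ, hℓ, hℓN, hℓS, rfl⟩
      exact ⟨ℓ, hℓ, hℓN, hℓS, ha _⟩
    · rintro ⟨ℓ, hℓ, hℓN, hℓS, rfl⟩
      exact ⟨ℓ, hℓ, hℓN, hℓS, (ha _).symm⟩
  rw [hset]
  have hmem : t ∈ Algebra.adjoin 𝒪 (Set.range χ) := by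
    rw [hχ]
    exact Algebra.mem_top
  refine Algebra.adjoin_induction (p := fun t _ => a₁ t ∈ Algebra.adjoin 𝒪
      {f : Module.End 𝒪 M₁ | ∃ (ℓ : ℕ) (hℓ : ℓ.Prime) (hℓN : ¬ ℓ ∣ N') (hℓS : ℓ ∉ S),
        f = tw₁ (heckeAlgebra.T hℓ hℓN hℓS)}) ?_ ?_ ?_ ?_ hmem
  · rintro _ ⟨t', rfl⟩
    rw [ha]
    exact tw_mem_adjoin hSN tw₁ t'
  · intro c
    rw [AlgHom.commutes]
    exact Subalgebra.algebraMap_mem _ c
  · intro x y _ _ hx hy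
    rw [map_add]
    exact add_mem hx hy
  · intro x y _ _ hx hy
    rw [map_mul]
    exact mul_mem hx hy

end Span

/-! ### the plug -/

section Plug

open GB.B3.L1Iso GB.B3.Plug GB.B3.ChiLevelMulti
  GB.B3.Final GB.B3.TWLevel
  GB.B3.LocTransport S16_helper49 ModularCurve.Period
  GM.EisClass GB.B9.ThetaT

variable {N q p K : ℕ} [NeZero N] [NeZero (N * q)] [hqF : Fact q.Prime] [hpF : Fact p.Prime]
  {r e N'' : ℕ → ℕ}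
variable (Sy : Symbols (N * q)) (hrN : ∀ j, Sy.r j ∣ N) (hqN : ¬ q ∣ N)
variable {O : Type} [CommRing O] [IsDomain O] [IsDiscreteValuationRing O]
  [IsAdicComplete (maximalIdeal O) O] [CharZero O] [Finite (ResidueField O)]
variable (𝔪 : Ideal (Sy.𝕋 O)) [𝔪.IsMaximal]
variable (H : PrimeData (N * q) p K r e N'') {ϖ : O} {s0 : Sy.ι₁} (h : Plug.Hyp Sy 𝔪 p ϖ s0)
variable (k : ℕ) (c : Fin 1 → O) (hc : ∀ v : Fin 1, c v ^ p ^ e (1 + k - 1 - v) = 1)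
  (hc1 : ∀ v, (1 : O) - c v ∈ Ideal.span {ϖ})
variable {TQ : Type} [CommRing TQ] [IsLocalRing TQ] [Algebra O TQ]
  {ρbar : ResidualGaloisRep (ResidueField O)}
  {𝒟 : ∀ ⦃A : Type⦄ [CommRing A] [IsLocalRing A] [Algebra O A], GaloisRepAdic A → Prop}
  {DQ : GaloisRep.DeformationRingData O ρbar 𝒟}

include hqN in
/-- **`he` (hole G7 of ProviderFlat), plug form**: `T_Q` generated by a Hecke hom `χ` of
`heckeAlgebra N' 2 S` (all primes of `N'` and of `N q` in `S`), `a₁ ∘ χ = tw₁`, `tw₁` induced from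
`twP` on the big level (`TQCompat.quotTw_fmk`), `twP (T_ℓ) = ⟨d⟩ T_ℓ` there with helper44's
half-diamonds (`TwRestrictPlug.exists_twP` + `TwInst.exists_tw_primeData`), `ρ_Q ≃ DQ.ρ ⊗_ψ T_Q`
with the characteristic polynomials `X² − χ(T_ℓ) X + ℓ`. -/
theorem he_plug (hk : k ≤ K) (hrk : ∀ i : Fin k, r i ∣ N)
    (hbase : ∀ y : Additive (Gamma0 N) →+ O,
      IsLoc (HeckeActH.act0 (restrict Sy hrN) O) 𝔪 y → y = 0)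
    (hbnd : ∀ y : Additive (GammaH (Theta (Δs p e) H.psi k)) →+ O,
      IsLoc (actH Sy O (Theta (Δs p e) H.psi k)) 𝔪 y →
        y ∈ parabolicHoms O (GammaH (Theta (Δs p e) H.psi k)) O)
    (S : Finset ℕ) (hSN : ∀ ℓ : ℕ, ℓ.Prime → ℓ ∣ N * q → ℓ ∈ S) (hpS : p ∈ S) (hqp : q ≠ p)
    {N' : ℕ} [NeZero N'] (hSN' : ∀ ℓ : ℕ, ℓ.Prime → ℓ ∣ N' → ℓ ∈ (↑S : Set ℕ))
    (ψ : DQ.R →ₐ[O] TQ) (hψ : IsLocalHom (ψ : DQ.R →+* TQ)) (ρQ : GaloisRepAdic TQ)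
    (hequiv : (DQ.ρ.baseChangeAlong (ψ : DQ.R →+* TQ) hψ).IsEquiv ρQ)
    (χ : ↥(heckeAlgebra N' 2 (↑S : Set ℕ)) →+* TQ)
    (hχ : Algebra.adjoin O (Set.range χ) = ⊤)
    (a₁ : TQ →ₐ[O] Module.End O (tw Sy 𝔪 H h 1 k c hc hc1).L1.M)
    (hred : ∀ t : TQ, a₁ t * a₁ t = 0 → a₁ t = 0)
    (tw₁ : ↥(heckeAlgebra N' 2 (↑S : Set ℕ)) →+*
      Module.End O (tw Sy 𝔪 H h 1 k c hc hc1).L1.M)
    (ha : ∀ t, a₁ (χ t) = tw₁ t)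
    (twP : ↥(heckeAlgebra N' 2 (↑S : Set ℕ)) →+* Module.End O (bigLevel Sy 𝔪 H h (1 + k)).M)
    (hfmk : ∀ t (x : (bigLevel Sy 𝔪 H h (1 + k)).M),
      tw₁ t (fmk (frD (bigLevel Sy 𝔪 H h (1 + k))) (fun _ => (1 : O)) x)
        = fmk (frD (bigLevel Sy 𝔪 H h (1 + k))) (fun _ => (1 : O)) (twP t x))
    (hT : ∀ (ℓ : ℕ) (hℓ : ℓ.Prime) (hℓN' : ¬ ℓ ∣ N') (hℓS : ℓ ∉ (↑S : Set ℕ))
        (hℓN : ¬ ℓ ∣ N * q),
      haveI : Fact ℓ.Prime := ⟨hℓ⟩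
      ∃ d : Gamma0 (N * q),
        (∀ u : (ZMod (N * q))ˣ, (u : ZMod (N * q)) = ((ℓ : ℕ) : ZMod (N * q)) →
          chi (Theta (Δs p e) H.psi (1 + k)) d ^ 2 * Theta (Δs p e) H.psi (1 + k) u = 1) ∧
        ∀ x : (bigLevel Sy 𝔪 H h (1 + k)).M,
          (bigReal Sy 𝔪 H h (1 + k)).ι (twP (heckeAlgebra.T hℓ hℓN' hℓS) x)
            = diaH (Theta (Δs p e) H.psi (1 + k)) O d
                (TH (Theta (Δs p e) H.psi (1 + k)) O hℓN ((bigReal Sy 𝔪 H h (1 + k)).ι x)))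
    (hρ : ∀ (ℓ : ℕ) (hℓ : ℓ.Prime) (hℓN' : ¬ ℓ ∣ N') (hℓS : ℓ ∉ (↑S : Set ℕ)),
      ∀ A : ValuationSubring Qb, A.LiesOverPrime ℓ → ∀ σ : GQ, A.IsFrobeniusAt σ ℓ →
        LinearMap.charpoly (ρQ.ρ σ)
          = X ^ 2 - C (χ (heckeAlgebra.T hℓ hℓN' hℓS)) * X + C ((ℓ : TQ)))
    (A : ValuationSubring Qb) (hA : A.LiesOverPrime q) (σ : GQ) (hσ : A.IsFrobeniusAt σ q) :
    a₁ ((matT ψ σ).trace ^ 2 - (1 + (q : TQ)) ^ 2) = 0 := by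
  classical
  -- `τ`
  let τ : ℕ → TQ := fun ℓ =>
    if hh : ℓ.Prime ∧ ¬ ℓ ∣ N' ∧ ℓ ∉ (↑S : Set ℕ) then χ (heckeAlgebra.T hh.1 hh.2.1 hh.2.2) else 0
  have hτ : ∀ (ℓ : ℕ) (hℓ : ℓ.Prime) (hℓN' : ¬ ℓ ∣ N') (hℓS : ℓ ∉ (↑S : Set ℕ)),
      τ ℓ = χ (heckeAlgebra.T hℓ hℓN' hℓS) := fun ℓ hℓ hℓN' hℓS => dif_pos ⟨hℓ, hℓN', hℓS⟩
  have hN' : ∀ ℓ : ℕ, ℓ.Prime → ℓ ∉ (↑S : Set ℕ) → ¬ ℓ ∣ N' := fun ℓ hℓ hℓS hd =>
    hℓS (hSN' ℓ hℓ hd)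
  refine he_matT Sy hrN hqN 𝔪 H h k c hc hc1 hk hrk hbase hbnd S hSN hpS hqp ψ hψ ρQ hequiv a₁ hred
    τ ?_ ?_ ?_ A hA σ hσ
  · intro ℓ hℓ hℓS hℓN
    haveI : Fact ℓ.Prime := ⟨hℓ⟩
    obtain ⟨d, hd, hx⟩ := hT ℓ hℓ (hN' ℓ hℓ hℓS) hℓS hℓN
    have hcop : Nat.Coprime ℓ (N * q) := (Nat.Prime.coprime_iff_not_dvd hℓ).2 hℓN
    refine ⟨d, fun u hu => GB.B7.Kill1Asm.half_of_big H (1 + k) k
      (Nat.le_add_left k 1) hk hcop d hd u hu, fun x => ?_⟩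
    refine ⟨twP (heckeAlgebra.T hℓ (hN' ℓ hℓ hℓS) hℓS) x, ?_, hx x⟩
    rw [hτ ℓ hℓ (hN' ℓ hℓ hℓS) hℓS, ha]
    exact hfmk _ x
  · intro t
    refine Algebra.adjoin_mono ?_ (hspan_of_adjoin hSN' χ hχ tw₁ a₁ ha t)
    rintro f ⟨ℓ, hℓ, hℓN', hℓS, rfl⟩
    exact ⟨ℓ, hℓ, hℓS, by rw [hτ ℓ hℓ hℓN' hℓS]⟩
  · intro ℓ hℓ hℓS B hB σ' hσ'
    rw [hτ ℓ hℓ (hN' ℓ hℓ hℓS) hℓS]
    exact hρ ℓ hℓ (hN' ℓ hℓ hℓS) hℓS B hB σ' hσ'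

end Plug

end GB.B7.Kill1TQ

end

end Fermat.Agent.GE8.P3B
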