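/-
GATE-B / S43, node GB-B7-TKILL (helper52): **`Kill1TQ.he_plug` at a VARIABLE level `L = N * q`.**

The objects of record of one Taylor–Wiles level (helper51 `ProviderFlat/G1`: `Q.N := M * ∏ qv`,
`Q.Sy : Symbols Q.N`, …) live at a level which is not LITERALLY of the form `N * q`, while the whole
`kill₁` chain (`SeamQ`, `UqOne`, `ThetaQ`, `Kill1Asm`, `Kill1TQ`) is stated at the literal `N * q`
(seam (S1) of helper95, board 6689).  This file is the `subst` wrapper: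

* `restrictVar Sy hL hrN : Symbols N` : the symbols of level `L` with all `U`-primes dividing `N`,
  as symbols of level `N` (`= LocTransport.restrict` when `L` is literally `N * q`:
  `restrictVar_eq`);
* `he_plug_var` : `Kill1TQ.he_plug` VERBATIM with `N * q` replaced by `L` everywhere
  (`hL : L = N * q`).
-/
import Mathlib
import Fermat.Agent.GE8.P3B.GB.B7.Kill1TQ
import Fermat.Agent.GE8.P3B.StepGen
import Fermat.Agent.GE8.P3B.Ok3W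

/- TWIN (helper6 B4 generator; conventions of helper24 / helper86) of `Fermat.Agent.GB.B7.Kill1Var` with `p ≠ 3` relaxed to `Ok3A Sy 𝔪 p` / `Ok3W p W` (RISK-5 fix (B), step B4); everything below lives in the wrapper namespace `Fermat.Agent.GE8.P3B`. -/
set_option linter.dupNamespace false
open Fermat Fermat.Agent Fermat.Agent.GB Fermat.Agent.GB.B3 Fermat.Agent.GB.B3.ChiLevelMulti Fermat.Agent.GB.B3.EisGamma0 Fermat.Agent.GB.B3.GamH Fermat.Agent.GB.B3.HeckeAct Fermat.Agent.GB.B3.HeckeActH Fermat.Agent.GB.B3.RealLevel Fermat.Agent.GB.B3.TWChars Fermat.Agent.GB.B3.TWLevel Fermat.Agent.GB.B7 Fermat.Agent.GB.B9 Fermat.Agent.GB.B9.ThetaT Fermat.Agent.GJ Fermat.Agent.GJ.J2 Fermat.Agent.GJ.J2.Lat Fermat.Agent.GM Fermat.Agent.GM.B Fermat.Agent.GM.EisClass Fermat.Agent.S16_helper49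

namespace Fermat.Agent.GE8.P3B

set_option autoImplicit false
set_option linter.unusedSectionVars false
set_option linter.style.haveILetI false

noncomputable section

open scoped MatrixGroups
open CongruenceSubgroup Polynomial IsLocalRing CuspForm
open GM.B
open GB.B3 GB.B3.EisGamma0 GB.B3.GamH
open GB.B3.RealLevel GB.B3.HeckeActH GB.B3.HeckeAct
open GB.B3.TWChars GB.B3.Tower GB.B3.FinalTW
open GJ.J2.Lat

namespace GB.B7.Kill1Var

/-- `G_ℚ`. -/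
local notation "GQ" => AlgebraicClosure ℚ ≃ₐ[ℚ] AlgebraicClosure ℚ
/-- `ℚ̄`. -/
local notation "Qb" => AlgebraicClosure ℚ

open GB.B3.L1Iso GB.B3.Plug GB.B3.ChiLevelMulti
  GB.B3.Final GB.B3.TWLevel
  GB.B3.LocTransport S16_helper49 ModularCurve.Period
  GM.EisClass GB.B9.ThetaT

section Restrict

variable {L N q : ℕ}

/-- Hecke symbols at a level `L = N * q` with all `U`-primes dividing `N`, as Hecke symbols at
level `N` — the SAME index types, hence the same symbol algebra. -/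
def restrictVar (Sy : Symbols L) (hL : L = N * q) (hrN : ∀ j, Sy.r j ∣ N) : Symbols N where
  ι₁ := Sy.ι₁
  ι₂ := Sy.ι₂
  ℓ := Sy.ℓ
  hℓ := Sy.hℓ
  hℓN := fun i h => Sy.hℓN i (hL ▸ Dvd.dvd.mul_right h q)
  r := Sy.r
  hr := Sy.hr
  hrN := hrN

@[simp] theorem restrictVar_ℓ (Sy : Symbols L) (hL : L = N * q) (hrN : ∀ j, Sy.r j ∣ N)
    (i : Sy.ι₁) : (restrictVar Sy hL hrN).ℓ i = Sy.ℓ i := rfl

@[simp] theorem restrictVar_r (Sy : Symbols L) (hL : L = N * q) (hrN : ∀ j, Sy.r j ∣ N)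
    (j : Sy.ι₂) : (restrictVar Sy hL hrN).r j = Sy.r j := rfl

/-- at a literal level `N * q` this is helper95's `LocTransport.restrict` -/
theorem restrictVar_eq (Sy : Symbols (N * q)) (hrN : ∀ j, Sy.r j ∣ N) :
    restrictVar Sy rfl hrN = restrict Sy hrN := rfl

end Restrict

section Plug

variable {L N q p K : ℕ} [NeZero N] [NeZero L] [hqF : Fact q.Prime] [hpF : Fact p.Prime]
  {r e N'' : ℕ → ℕ}
variable (hL : L = N * q) (Sy : Symbols L) (hrN : ∀ j, Sy.r j ∣ N) (hqN : ¬ q ∣ N)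
variable {O : Type} [CommRing O] [IsDomain O] [IsDiscreteValuationRing O]
  [IsAdicComplete (maximalIdeal O) O] [CharZero O] [Finite (ResidueField O)]
variable (𝔪 : Ideal (Sy.𝕋 O)) [𝔪.IsMaximal]
variable (H : PrimeData L p K r e N'') {ϖ : O} {s0 : Sy.ι₁} (h : Plug.Hyp Sy 𝔪 p ϖ s0)
variable (k : ℕ) (c : Fin 1 → O) (hc : ∀ v : Fin 1, c v ^ p ^ e (1 + k - 1 - v) = 1)
  (hc1 : ∀ v, (1 : O) - c v ∈ Ideal.span {ϖ})
variable {TQ : Type} [CommRing TQ] [IsLocalRing TQ] [Algebra O TQ]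
  {ρbar : ResidualGaloisRep (ResidueField O)}
  {𝒟 : ∀ ⦃A : Type⦄ [CommRing A] [IsLocalRing A] [Algebra O A], GaloisRepAdic A → Prop}
  {DQ : GaloisRep.DeformationRingData O ρbar 𝒟}

include hqN in
/-- **`he` (hole G7 of ProviderFlat), plug form, at a VARIABLE level `L = N * q`**:
`Kill1TQ.he_plug` with the literal `N * q` replaced by `L`. -/
theorem he_plug_var (hk : k ≤ K) (hrk : ∀ i : Fin k, r i ∣ N)
    (hbase : ∀ y : Additive (Gamma0 N) →+ O,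
      IsLoc (HeckeActH.act0 (restrictVar Sy hL hrN) O) 𝔪 y → y = 0)
    (hbnd : ∀ y : Additive (GammaH (Theta (Δs p e) H.psi k)) →+ O,
      IsLoc (actH Sy O (Theta (Δs p e) H.psi k)) 𝔪 y →
        y ∈ parabolicHoms O (GammaH (Theta (Δs p e) H.psi k)) O)
    (S : Finset ℕ) (hSN : ∀ ℓ : ℕ, ℓ.Prime → ℓ ∣ L → ℓ ∈ S) (hpS : p ∈ S) (hqp : q ≠ p)
    {N' : ℕ} [NeZero N'] (hSN' : ∀ ℓ : ℕ, ℓ.Prime → ℓ ∣ N' → ℓ ∈ (↑S : Set ℕ))
    (ψ : DQ.R →ₐ[O] TQ) (hψ : IsLocalHom (ψ : DQ.R →+* TQ)) (ρQ : GaloisRepAdic TQ)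
    (hequiv : (DQ.ρ.baseChangeAlong (ψ : DQ.R →+* TQ) hψ).IsEquiv ρQ)
    (χ : ↥(heckeAlgebra N' 2 (↑S : Set ℕ)) →+* TQ)
    (hχ : Algebra.adjoin O (Set.range χ) = ⊤)
    (a₁ : TQ →ₐ[O] Module.End O (tw Sy 𝔪 H h 1 k c hc hc1).L1.M)
    (hred : ∀ t : TQ, a₁ t * a₁ t = 0 → a₁ t = 0)
    (tw₁ : ↥(heckeAlgebra N' 2 (↑S : Set ℕ)) →+*
      Module.End O (tw Sy 𝔪 H h 1 k c hc hc1).L1.M)
    (ha : ∀ t, a₁ (χ t) = tw₁ t)
    (twP : ↥(heckeAlgebra N' 2 (↑S : Set ℕ)) →+* Module.End O (bigLevel Sy 𝔪 H h (1 + k)).M)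
    (hfmk : ∀ t (x : (bigLevel Sy 𝔪 H h (1 + k)).M),
      tw₁ t (fmk (frD (bigLevel Sy 𝔪 H h (1 + k))) (fun _ => (1 : O)) x)
        = fmk (frD (bigLevel Sy 𝔪 H h (1 + k))) (fun _ => (1 : O)) (twP t x))
    (hT : ∀ (ℓ : ℕ) (hℓ : ℓ.Prime) (hℓN' : ¬ ℓ ∣ N') (hℓS : ℓ ∉ (↑S : Set ℕ))
        (hℓN : ¬ ℓ ∣ L),
      haveI : Fact ℓ.Prime := ⟨hℓ⟩
      ∃ d : Gamma0 L,
        (∀ u : (ZMod L)ˣ, (u : ZMod L) = ((ℓ : ℕ) : ZMod L) →
          chi (Theta (Δs p e) H.psi (1 + k)) d ^ 2 * Theta (Δs p e) H.psi (1 + k) u = 1) ∧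
        ∀ x : (bigLevel Sy 𝔪 H h (1 + k)).M,
          (bigReal Sy 𝔪 H h (1 + k)).ι (twP (heckeAlgebra.T hℓ hℓN' hℓS) x)
            = diaH (Theta (Δs p e) H.psi (1 + k)) O d
                (TH (Theta (Δs p e) H.psi (1 + k)) O hℓN ((bigReal Sy 𝔪 H h (1 + k)).ι x)))
    (hρ : ∀ (ℓ : ℕ) (hℓ : ℓ.Prime) (hℓN' : ¬ ℓ ∣ N') (hℓS : ℓ ∉ (↑S : Set ℕ)),
      ∀ A : ValuationSubring Qb, A.LiesOverPrime ℓ → ∀ σ : GQ, A.IsFrobeniusAt σ ℓ →
        LinearMap.charpoly (ρQ.ρ σ)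
          = X ^ 2 - C (χ (heckeAlgebra.T hℓ hℓN' hℓS)) * X + C ((ℓ : TQ)))
    (A : ValuationSubring Qb) (hA : A.LiesOverPrime q) (σ : GQ) (hσ : A.IsFrobeniusAt σ q) :
    a₁ ((matT ψ σ).trace ^ 2 - (1 + (q : TQ)) ^ 2) = 0 := by
  subst hL
  exact GB.B7.Kill1TQ.he_plug Sy hrN hqN 𝔪 H h k c hc hc1 hk hrk hbase hbnd S hSN hpS
    hqp hSN' ψ hψ ρQ hequiv χ hχ a₁ hred tw₁ ha twP hfmk hT hρ A hA σ hσ

end Plug

end GB.B7.Kill1Var

end

end Fermat.Agent.GE8.P3B
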